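/-
Project FF (S19), cell [ADD], sub-cell [A-RES], leaf [B3] (`ffa_res_SeamB3`): on a fibre field `k`,
a unit-leading `f ∈ k ⊗ Λ m` is nonzero in `k ⊗ 𝒜` and `(k ⊗ 𝒜)/(f)` has dimension `m n`.
Owner: helper13.  Prefix `ffa_res_b3_`.  Imports Mathlib + FF/Add/Res/Lat.

`(k ⊗ 𝒜)/(f) ≅ Λ_k(s+m) / f · Λ_k(s)` for `s ≥ m0` (generation + DIV of the lattice calculus), of
dimension `((s+m) n + 1 - g) - (s n + 1 - g) = m n`.
-/
import Mathlib
import Fermat.Agent.FF.Add.Res.Lat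

set_option autoImplicit false
set_option linter.style.haveILetI false
set_option linter.unusedSectionVars false

noncomputable section

namespace Fermat.Agent.FF

open scoped TensorProduct

section B3

variable {O : Type} [CommRing O] {𝒜 : Type} [CommRing 𝒜] [Algebra O 𝒜]
  {C : Type} [CommRing C] [Algebra O C]
  {Λ : ℕ → Submodule O 𝒜} {lead : ∀ m, ↥(Λ m) →ₗ[O] C}
  {k : Type} [Field k] [Algebra O k] {g n m0 : ℕ}

/-- on a fibre field the cuspidal algebra `k ⊗ C` is nontrivial (otherwise `k ⊗ 𝒜` would be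
finite-dimensional) -/
theorem ffa_res_b3_nontrivial (mono : Monotone Λ) (exh : ∀ a : 𝒜, ∃ m, a ∈ Λ m)
    (lead_ker : ∀ (m : ℕ) (x : ↥(Λ (m + 1))), lead (m + 1) x = 0 ↔ (x : 𝒜) ∈ Λ m)
    (hfib : ffa_IsFib Λ lead g n m0 k) : Nontrivial (k ⊗[O] C) := by
  by_contra hnt
  rw [not_nontrivial_iff_subsingleton] at hnt
  apply hfib.notfin
  have key : ∀ d : ℕ, ∀ u : k ⊗[O] ↥(Λ (m0 + d)),
      ∃ v : k ⊗[O] ↥(Λ m0), ffa_incl k Λ m0 v = ffa_incl k Λ (m0 + d) u := by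
    intro d
    induction d with
    | zero => exact fun u => ⟨u, rfl⟩
    | succ d ih =>
      intro u
      obtain ⟨v, hv⟩ := hfib.good.exact (m0 + d) (by omega) u (Subsingleton.elim _ _)
      obtain ⟨v', hv'⟩ := ih v
      exact ⟨v', hv'.trans hv⟩
  haveI := hfib.fin m0
  refine Module.Finite.of_surjective (ffa_incl k Λ m0) fun w => ?_
  obtain ⟨m', x', hx'⟩ := ffa_res_lat_exh (lead := lead) k mono exh lead_ker w
  obtain ⟨x'', hx'', -⟩ := ffa_res_lat_up (lead := lead) k mono lead_ker m' (m0 + m')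
    (by omega) x'
  obtain ⟨v, hv⟩ := key m' x''
  exact ⟨v, by rw [hv, hx'', hx']⟩

/-- **[B3]** on a fibre field. -/
theorem ffa_res_b3_main (mono : Monotone Λ) (exh : ∀ a : 𝒜, ∃ m, a ∈ Λ m)
    (mul_mem : ∀ (a b : ℕ) (x y : 𝒜), x ∈ Λ a → y ∈ Λ b → x * y ∈ Λ (a + b))
    (lead_ker : ∀ (m : ℕ) (x : ↥(Λ (m + 1))), lead (m + 1) x = 0 ↔ (x : 𝒜) ∈ Λ m)
    (lead_mul : ∀ (a b : ℕ) (x : ↥(Λ a)) (y : ↥(Λ b)),
      lead (a + b) ⟨(x : 𝒜) * (y : 𝒜), mul_mem a b x y x.2 y.2⟩ = lead a x * lead b y)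
    (lead_surj : ∀ m, m0 ≤ m → Function.Surjective (lead m))
    (hfib : ffa_IsFib Λ lead g n m0 k) (m : ℕ) (f : k ⊗[O] ↥(Λ m))
    (hf : ffa_IsUL k Λ lead m f) :
    ffa_incl k Λ m f ≠ 0 ∧
    Module.Finite k ((k ⊗[O] 𝒜) ⧸ Ideal.span {ffa_incl k Λ m f}) ∧
    Module.finrank k ((k ⊗[O] 𝒜) ⧸ Ideal.span {ffa_incl k Λ m f}) = m * n := by
  haveI := hfib.ded
  haveI := ffa_res_b3_nontrivial mono exh lead_ker hfib
  set F := ffa_incl k Λ m f with hF
  -- (1) `F ≠ 0`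
  have hF0 : F ≠ 0 := by
    intro h0
    have hf0 : f = 0 := hfib.good.inj m (by rw [← hF, h0, map_zero])
    have hu : IsUnit (ffa_leadR k Λ lead m f) := hf
    rw [hf0, map_zero] at hu
    exact not_isUnit_zero hu
  refine ⟨hF0, ?_⟩
  -- the map `k ⊗ Λ (m0 + m) → (k ⊗ 𝒜)/(F)`
  set s := m0 with hs
  haveI := hfib.fin (s + m)
  haveI := hfib.fin s
  let q : (k ⊗[O] 𝒜) →ₗ[k] (k ⊗[O] 𝒜) ⧸ Ideal.span {F} :=
    (Ideal.Quotient.mkₐ k (Ideal.span {F})).toLinearMap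
  let φ : k ⊗[O] ↥(Λ (s + m)) →ₗ[k] (k ⊗[O] 𝒜) ⧸ Ideal.span {F} := q.comp (ffa_incl k Λ (s + m))
  have hφsurj : Function.Surjective φ := by
    intro w
    obtain ⟨w, rfl⟩ := Ideal.Quotient.mk_surjective w
    obtain ⟨u, b, hub⟩ := ffa_res_lat_gen mono exh mul_mem lead_ker lead_mul lead_surj hfib.good
      m s f hf le_rfl w
    refine ⟨u, ?_⟩
    show Ideal.Quotient.mk _ (ffa_incl k Λ (s + m) u) = Ideal.Quotient.mk _ w
    rw [Ideal.Quotient.eq, hub, sub_add_cancel_left, neg_mem_iff]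
    exact Ideal.mul_mem_right _ _ (Ideal.mem_span_singleton_self F)
  have hfin : Module.Finite k ((k ⊗[O] 𝒜) ⧸ Ideal.span {F}) := Module.Finite.of_surjective φ hφsurj
  refine ⟨hfin, ?_⟩
  -- the kernel of `φ` is `f · (k ⊗ Λ s)`
  have hker : (LinearMap.ker φ).map (ffa_incl k Λ (s + m)) =
      (LinearMap.range (ffa_incl k Λ s)).map (LinearMap.mulLeft k F) := by
    ext w
    simp only [Submodule.mem_map, LinearMap.mem_ker, LinearMap.mem_range]
    constructor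
    · rintro ⟨u, hu, rfl⟩
      have hu' : ffa_incl k Λ (s + m) u ∈ Ideal.span {F} := by
        have : Ideal.Quotient.mk (Ideal.span {F}) (ffa_incl k Λ (s + m) u) = 0 := hu
        rwa [Ideal.Quotient.eq_zero_iff_mem] at this
      obtain ⟨w, hw⟩ := Ideal.mem_span_singleton'.mp hu'
      obtain ⟨x, hx⟩ := ffa_res_lat_div mono exh mul_mem lead_ker lead_mul hfib.good m s f w hf
        le_rfl ⟨u, by rw [← hw, mul_comm]⟩
      exact ⟨w, ⟨x, hx⟩, by rw [LinearMap.mulLeft_apply, ← hw, mul_comm]⟩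
    · rintro ⟨w, ⟨x, rfl⟩, rfl⟩
      obtain ⟨z, hz, -⟩ := ffa_res_lat_mul k mul_mem lead_mul m s f x
      obtain ⟨z', hz', -⟩ := ffa_res_lat_cast (lead := lead) k (by omega : m + s = s + m) z
      refine ⟨z', ?_, ?_⟩
      · show Ideal.Quotient.mk (Ideal.span {F}) (ffa_incl k Λ (s + m) z') = 0
        rw [Ideal.Quotient.eq_zero_iff_mem, hz', hz]
        exact Ideal.mul_mem_right _ _ (Ideal.mem_span_singleton_self F)
      · rw [hz', hz, LinearMap.mulLeft_apply]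
  have hmulinj : Function.Injective (LinearMap.mulLeft k F) := by
    intro a b hab
    simp only [LinearMap.mulLeft_apply] at hab
    exact mul_left_cancel₀ hF0 hab
  have h1 : Module.finrank k (LinearMap.ker φ) = Module.finrank k (k ⊗[O] ↥(Λ s)) := by
    rw [LinearEquiv.finrank_eq (Submodule.equivMapOfInjective (ffa_incl k Λ (s + m))
      (hfib.good.inj (s + m)) (LinearMap.ker φ)), hker,
      ← LinearEquiv.finrank_eq (Submodule.equivMapOfInjective (LinearMap.mulLeft k F) hmulinj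
      (LinearMap.range (ffa_incl k Λ s))), LinearMap.finrank_range_of_inj (hfib.good.inj s)]
  have h2 := LinearMap.finrank_range_add_finrank_ker φ
  rw [LinearMap.range_eq_top.mpr hφsurj, finrank_top, h1] at h2
  have h3 := hfib.rank (s + m) (by omega)
  have h4 := hfib.rank s le_rfl
  have h5 : (s + m) * n = s * n + m * n := by ring
  omega

end B3

/-- **[B3]**. -/
theorem ffa_res_b3 : ffa_res_SeamB3 := by
  intro O _ _ _ 𝒜 _ _ C _ _ π Kb _ _ _ κ _ _ _ Λ lead g n m0 c0 pkg k _ _ hfib m f hf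
  exact ffa_res_b3_main pkg.mono pkg.exh pkg.mul_mem pkg.lead_ker pkg.lead_mul pkg.lead_surj hfib
    m f hf

end Fermat.Agent.FF
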