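/-
Project FF (S19), cell [ADD], sub-cell [A-RES], leaf [COLON-FIB]: the fibre half of [COLON], pure
Dedekind algebra.  `A` a Dedekind `k`-algebra whose residue fields are `k`, `0 ≠ f ∈ 𝔟`:
* `ffa_res_cfib_colon_mul`     : `((f) : 𝔟) · 𝔟 = (f)`;
* `ffa_res_cfib_finrank_colon` : `dim A/((f):𝔟) + dim A/𝔟 = dim A/(f)`;
* `ffa_res_cfib_ker_iff`       : for generators `a i` of `𝔟`, `μ : A/(f) → (A/(f))^r`,
                                 `q ↦ (q · a i)_i` kills `[x]` iff `x ∈ (f) : 𝔟`;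
* `ffa_res_cfib_finrank_range` : `dim range μ = dim A/((f):𝔟)`, hence
  `ffa_res_cfib_finrank_range_add` : `dim range μ + dim A/𝔟 = dim A/(f)`.
Prefix `ffa_res_cfib_`.  Imports Mathlib + FF/Dict/Quot.
-/
import Mathlib
import Fermat.Agent.FF.Dict.Quot

set_option autoImplicit false
set_option linter.unusedSectionVars false

noncomputable section

namespace Fermat.Agent.FF

open Module

section ColonFib

variable {k A : Type*} [Field k] [CommRing A] [IsDedekindDomain A] [Algebra k A]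

/-- in a Dedekind domain, `(f) : 𝔟` is the complement of `𝔟` in `(f)`. -/
theorem ffa_res_cfib_colon_eq {f : A} (hf : f ≠ 0) {𝔟 𝔠 : Ideal A}
    (h : Ideal.span {f} = 𝔟 * 𝔠) : (Ideal.span {f}).colon (𝔟 : Set A) = 𝔠 := by
  have h𝔟 : 𝔟 ≠ ⊥ := by
    rintro rfl
    rw [Ideal.bot_mul, Ideal.span_singleton_eq_bot] at h
    exact hf h
  ext x
  rw [Submodule.mem_colon]
  constructor
  · intro hx
    have h1 : Ideal.span {x} * 𝔟 ≤ 𝔟 * 𝔠 := by
      rw [← h, Ideal.span_singleton_mul_le_iff]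
      intro y hy
      have := hx y hy
      rwa [smul_eq_mul] at this
    have h2 : 𝔟 * 𝔠 ∣ 𝔟 * Ideal.span {x} := by
      rw [mul_comm 𝔟 (Ideal.span {x})]
      exact Ideal.dvd_iff_le.mpr h1
    have h3 : 𝔠 ∣ Ideal.span {x} := (mul_dvd_mul_iff_left h𝔟).mp h2
    exact (Ideal.dvd_iff_le.mp h3) (Ideal.mem_span_singleton_self x)
  · intro hx y hy
    rw [smul_eq_mul, h, mul_comm 𝔟 𝔠]
    exact Ideal.mul_mem_mul hx hy

/-- **(a)** `((f) : 𝔟) · 𝔟 = (f)`. -/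
theorem ffa_res_cfib_colon_mul {f : A} (hf : f ≠ 0) {𝔟 : Ideal A} (h : f ∈ 𝔟) :
    (Ideal.span {f}).colon (𝔟 : Set A) * 𝔟 = Ideal.span {f} := by
  have hle : Ideal.span {f} ≤ 𝔟 := (Ideal.span_singleton_le_iff_mem _).mpr h
  obtain ⟨𝔠, h𝔠⟩ := Ideal.dvd_iff_le.mpr hle
  rw [ffa_res_cfib_colon_eq hf h𝔠, h𝔠, mul_comm]

variable (hres : ∀ P : Ideal A, P.IsMaximal → P ≠ ⊥ →
  Function.Surjective (algebraMap k (A ⧸ P)))

include hres in
/-- **(b)** `dim A/((f):𝔟) + dim A/𝔟 = dim A/(f)`. -/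
theorem ffa_res_cfib_finrank_colon {f : A} (hf : f ≠ 0) {𝔟 : Ideal A} (h : f ∈ 𝔟) :
    finrank k (A ⧸ (Ideal.span {f}).colon (𝔟 : Set A)) + finrank k (A ⧸ 𝔟) =
      finrank k (A ⧸ Ideal.span {f}) := by
  have hmul := ffa_res_cfib_colon_mul hf h
  have hfne : (Ideal.span {f} : Ideal A) ≠ ⊥ := by
    rw [Ne, Ideal.span_singleton_eq_bot]
    exact hf
  have h𝔟 : 𝔟 ≠ ⊥ := by
    rintro rfl
    exact hf ((Ideal.mem_bot).mp h)
  have hcol : (Ideal.span {f}).colon (𝔟 : Set A) ≠ ⊥ := by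
    intro h0
    rw [h0, Ideal.bot_mul] at hmul
    exact hfne hmul.symm
  rw [← ffd_q_finrank_mul hres _ _ hcol h𝔟, hmul]

/-- the map `q ↦ (q · a i)_i` -/
def ffa_res_cfib_mu (f : A) {r : ℕ} (a : Fin r → A) :
    (A ⧸ Ideal.span {f}) →ₗ[k] (Fin r → A ⧸ Ideal.span {f}) :=
  LinearMap.pi fun i => LinearMap.mulRight k (Ideal.Quotient.mk (Ideal.span {f}) (a i))

@[simp] theorem ffa_res_cfib_mu_apply (f : A) {r : ℕ} (a : Fin r → A)
    (q : A ⧸ Ideal.span {f}) (i : Fin r) :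
    ffa_res_cfib_mu (k := k) f a q i = q * Ideal.Quotient.mk (Ideal.span {f}) (a i) := rfl

/-- **(c1)** `μ [x] = 0 ↔ x ∈ (f) : 𝔟`, for any `μ` with `μ q i = q · [a i]`. -/
theorem ffa_res_cfib_ker_iff {f : A} {𝔟 : Ideal A} {r : ℕ} (a : Fin r → A)
    (ha : Ideal.span (Set.range a) = 𝔟)
    (μ : (A ⧸ Ideal.span {f}) →ₗ[k] (Fin r → A ⧸ Ideal.span {f}))
    (hμ : ∀ q i, μ q i = q * Ideal.Quotient.mk (Ideal.span {f}) (a i)) (x : A) :
    μ (Ideal.Quotient.mk (Ideal.span {f}) x) = 0 ↔ x ∈ (Ideal.span {f}).colon (𝔟 : Set A) := by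
  rw [Submodule.mem_colon]
  constructor
  · intro h0 y hy
    rw [smul_eq_mul]
    -- the set `{y | x * y ∈ (f)}` is an ideal containing the generators
    have hgen : ∀ i, x * a i ∈ Ideal.span {f} := by
      intro i
      have h1 := congrFun h0 i
      rw [hμ, Pi.zero_apply, ← map_mul, Ideal.Quotient.eq_zero_iff_mem] at h1
      exact h1
    rw [← ha] at hy
    refine Submodule.span_induction (p := fun y _ => x * y ∈ Ideal.span {f}) ?_ ?_ ?_ ?_ hy
    · rintro _ ⟨i, rfl⟩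
      exact hgen i
    · rw [mul_zero]; exact Ideal.zero_mem _
    · intro y z _ _ hy hz
      rw [mul_add]; exact Ideal.add_mem _ hy hz
    · intro c y _ hy
      rw [smul_eq_mul, mul_left_comm]
      exact Ideal.mul_mem_left _ c hy
  · intro hx
    funext i
    rw [hμ, Pi.zero_apply, ← map_mul, Ideal.Quotient.eq_zero_iff_mem]
    have hai : a i ∈ 𝔟 := by
      rw [← ha]
      exact Ideal.subset_span ⟨i, rfl⟩
    have := hx (a i) hai
    rwa [smul_eq_mul] at this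

/-- **(c2)** `dim range μ = dim A/((f) : 𝔟)`. -/
theorem ffa_res_cfib_finrank_range {f : A} {𝔟 : Ideal A} {r : ℕ} (a : Fin r → A)
    (ha : Ideal.span (Set.range a) = 𝔟)
    (μ : (A ⧸ Ideal.span {f}) →ₗ[k] (Fin r → A ⧸ Ideal.span {f}))
    (hμ : ∀ q i, μ q i = q * Ideal.Quotient.mk (Ideal.span {f}) (a i)) :
    finrank k ↥(LinearMap.range μ) = finrank k (A ⧸ (Ideal.span {f}).colon (𝔟 : Set A)) := by
  -- `ν : A → (A/(f))^r`
  let mkf : A →ₗ[k] (A ⧸ Ideal.span {f}) := (Ideal.Quotient.mkₐ k (Ideal.span {f})).toLinearMap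
  have hmkf : Function.Surjective mkf := Ideal.Quotient.mk_surjective
  let ν : A →ₗ[k] (Fin r → A ⧸ Ideal.span {f}) := μ.comp mkf
  have hrange : LinearMap.range ν = LinearMap.range μ :=
    LinearMap.range_comp_of_range_eq_top μ (LinearMap.range_eq_top.mpr hmkf)
  have hker : LinearMap.ker ν =
      ((Ideal.span {f}).colon (𝔟 : Set A)).restrictScalars k := by
    ext x
    rw [LinearMap.mem_ker, Submodule.restrictScalars_mem]
    exact ffa_res_cfib_ker_iff a ha μ hμ x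
  rw [← hrange]
  have e1 : (A ⧸ LinearMap.ker ν) ≃ₗ[k] ↥(LinearMap.range ν) := ν.quotKerEquivRange
  have e2 : (A ⧸ LinearMap.ker ν) ≃ₗ[k]
      (A ⧸ ((Ideal.span {f}).colon (𝔟 : Set A)).restrictScalars k) :=
    Submodule.quotEquivOfEq _ _ hker
  have e3 : (A ⧸ ((Ideal.span {f}).colon (𝔟 : Set A)).restrictScalars k) ≃ₗ[k]
      (A ⧸ (Ideal.span {f}).colon (𝔟 : Set A)) :=
    Submodule.Quotient.restrictScalarsEquiv k _
  exact (e1.symm.trans (e2.trans e3)).finrank_eq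

include hres in
/-- **(c)** `dim range μ + dim A/𝔟 = dim A/(f)`. -/
theorem ffa_res_cfib_finrank_range_add {f : A} (hf : f ≠ 0) {𝔟 : Ideal A} (h : f ∈ 𝔟) {r : ℕ}
    (a : Fin r → A) (ha : Ideal.span (Set.range a) = 𝔟)
    (μ : (A ⧸ Ideal.span {f}) →ₗ[k] (Fin r → A ⧸ Ideal.span {f}))
    (hμ : ∀ q i, μ q i = q * Ideal.Quotient.mk (Ideal.span {f}) (a i)) :
    finrank k ↥(LinearMap.range μ) + finrank k (A ⧸ 𝔟) = finrank k (A ⧸ Ideal.span {f}) := by
  rw [ffa_res_cfib_finrank_range a ha μ hμ]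
  exact ffa_res_cfib_finrank_colon hres hf h

include hres in
/-- **(c)**, subtraction form. -/
theorem ffa_res_cfib_finrank_range_eq {f : A} (hf : f ≠ 0) {𝔟 : Ideal A} (h : f ∈ 𝔟) {r : ℕ}
    (a : Fin r → A) (ha : Ideal.span (Set.range a) = 𝔟)
    (μ : (A ⧸ Ideal.span {f}) →ₗ[k] (Fin r → A ⧸ Ideal.span {f}))
    (hμ : ∀ q i, μ q i = q * Ideal.Quotient.mk (Ideal.span {f}) (a i)) :
    finrank k ↥(LinearMap.range μ) = finrank k (A ⧸ Ideal.span {f}) - finrank k (A ⧸ 𝔟) := by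
  have := ffa_res_cfib_finrank_range_add hres hf h a ha μ hμ
  omega

end ColonFib

end Fermat.Agent.FF
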