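/-
Project FF (S19), cell [ADD], sub-cell [A-RES] (`ffa_SeamRES`, two-step residuation): DEFINITIONS
(sub-architect: helper9).  Prefix `ffa_`/`ffa_res_`.  Imports Mathlib + FF/Add/Seams only.

Vocabulary over an arbitrary commutative `O`-algebra `R` ("base": `R = B` nice, or `R = k` a fibre
field `Kb`, `κ`):
* `ffa_incl R Λ m : R ⊗ Λ m → R ⊗ 𝒜`, `ffa_leadR R Λ lead m : R ⊗ Λ m → R ⊗ C` (for a field `k`
  these ARE `ff_incl O 𝒜 k Λ m`, `ff_leadk O 𝒜 C k Λ lead m` by `rfl`);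
* `ffa_IsUL R Λ lead m f` : `f ∈ R ⊗ Λ m` is UNIT-LEADING (its leading term is a unit of `R ⊗ C`);
* `ffa_L R Λ m J`        : the lattice `{u ∈ R ⊗ Λ m | incl u ∈ J}` (`= L(m·cusps − D_J)`);
* `ffa_bcΛ ξ Λ m`, `ffa_bcC ξ` : base change of lattices / of the cuspidal algebra along
  `ξ : R →ₐ[O] R'` (`ffa_bc 𝒜 ξ` of Add/Seams.lean is the one of `R ⊗ 𝒜`), with the compatibilities
  `ffa_incl_bcΛ`, `ffa_leadR_bcΛ`, `ffa_bcΛ_smul`.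
-/
import Mathlib
import Fermat.Agent.FF.Add.Seams

set_option autoImplicit false

noncomputable section

namespace Fermat.Agent.FF

open scoped TensorProduct

section Defs

variable {O : Type} [CommRing O] {𝒜 : Type} [CommRing 𝒜] [Algebra O 𝒜]
  {C : Type} [CommRing C] [Algebra O C]
  (R : Type) [CommRing R] [Algebra O R]
  (Λ : ℕ → Submodule O 𝒜) (lead : ∀ m, ↥(Λ m) →ₗ[O] C)

/-- the map `R ⊗ Λ m → R ⊗ 𝒜` -/
def ffa_incl (m : ℕ) : R ⊗[O] ↥(Λ m) →ₗ[R] R ⊗[O] 𝒜 := (Λ m).subtype.baseChange R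

/-- the leading term at the cusps over the base `R` -/
def ffa_leadR (m : ℕ) : R ⊗[O] ↥(Λ m) →ₗ[R] R ⊗[O] C := (lead m).baseChange R

/-- `f ∈ R ⊗ Λ m` is **unit-leading**: its leading term is a unit of `R ⊗ C`
(= exact pole order `m` at every cusp of every fibre). -/
def ffa_IsUL (m : ℕ) (f : R ⊗[O] ↥(Λ m)) : Prop := IsUnit (ffa_leadR R Λ lead m f)

/-- the lattice `L(m · cusps − D_J) = {u ∈ R ⊗ Λ m | incl u ∈ J}` -/
def ffa_L (m : ℕ) (J : Ideal (R ⊗[O] 𝒜)) : Submodule R (R ⊗[O] ↥(Λ m)) :=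
  (J.restrictScalars R).comap (ffa_incl R Λ m)

variable {R Λ}

theorem ffa_mem_L {m : ℕ} {J : Ideal (R ⊗[O] 𝒜)} {u : R ⊗[O] ↥(Λ m)} :
    u ∈ ffa_L R Λ m J ↔ ffa_incl R Λ m u ∈ J := Iff.rfl

@[simp] theorem ffa_incl_tmul (m : ℕ) (r : R) (x : ↥(Λ m)) :
    ffa_incl R Λ m (r ⊗ₜ[O] x) = r ⊗ₜ[O] (x : 𝒜) := rfl

@[simp] theorem ffa_leadR_tmul (m : ℕ) (r : R) (x : ↥(Λ m)) :
    ffa_leadR R Λ lead m (r ⊗ₜ[O] x) = r ⊗ₜ[O] lead m x := rfl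

variable {R' : Type} [CommRing R'] [Algebra O R']

variable (Λ) in
/-- base change of the lattices along `ξ : R → R'` (`ξ`-semilinear: `ffa_bcΛ_smul`) -/
def ffa_bcΛ (ξ : R →ₐ[O] R') (m : ℕ) : R ⊗[O] ↥(Λ m) →ₗ[O] R' ⊗[O] ↥(Λ m) :=
  TensorProduct.map ξ.toLinearMap LinearMap.id

variable (C) in
/-- base change of the cuspidal algebra along `ξ : R → R'` -/
def ffa_bcC (ξ : R →ₐ[O] R') : R ⊗[O] C →ₐ[O] R' ⊗[O] C :=
  Algebra.TensorProduct.map ξ (AlgHom.id O C)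

@[simp] theorem ffa_bcΛ_tmul (ξ : R →ₐ[O] R') (m : ℕ) (r : R) (x : ↥(Λ m)) :
    ffa_bcΛ Λ ξ m (r ⊗ₜ[O] x) = ξ r ⊗ₜ[O] x := rfl

@[simp] theorem ffa_bcC_tmul (ξ : R →ₐ[O] R') (r : R) (c : C) :
    ffa_bcC C ξ (r ⊗ₜ[O] c) = ξ r ⊗ₜ[O] c := rfl

@[simp] theorem ffa_res_bc_tmul (ξ : R →ₐ[O] R') (r : R) (a : 𝒜) :
    ffa_bc 𝒜 ξ (r ⊗ₜ[O] a) = ξ r ⊗ₜ[O] a := rfl

/-- `incl` commutes with base change -/
theorem ffa_incl_bcΛ (ξ : R →ₐ[O] R') (m : ℕ) (u : R ⊗[O] ↥(Λ m)) :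
    ffa_incl R' Λ m (ffa_bcΛ Λ ξ m u) = ffa_bc 𝒜 ξ (ffa_incl R Λ m u) := by
  induction u using TensorProduct.induction_on with
  | zero => simp
  | tmul r x => rfl
  | add x y hx hy => simp only [map_add, hx, hy]

/-- the leading term commutes with base change -/
theorem ffa_leadR_bcΛ (ξ : R →ₐ[O] R') (m : ℕ) (u : R ⊗[O] ↥(Λ m)) :
    ffa_leadR R' Λ lead m (ffa_bcΛ Λ ξ m u) = ffa_bcC C ξ (ffa_leadR R Λ lead m u) := by
  induction u using TensorProduct.induction_on with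
  | zero => simp
  | tmul r x => rfl
  | add x y hx hy => simp only [map_add, hx, hy]

/-- `ffa_bcΛ ξ m` is `ξ`-semilinear -/
theorem ffa_bcΛ_smul (ξ : R →ₐ[O] R') (m : ℕ) (b : R) (u : R ⊗[O] ↥(Λ m)) :
    ffa_bcΛ Λ ξ m (b • u) = ξ b • ffa_bcΛ Λ ξ m u := by
  induction u using TensorProduct.induction_on with
  | zero => simp
  | tmul r x =>
    simp only [TensorProduct.smul_tmul', smul_eq_mul, ffa_bcΛ_tmul, map_mul]
  | add x y hx hy => simp only [smul_add, map_add, hx, hy]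

/-- `ffa_bc 𝒜 ξ` is `ξ`-semilinear -/
theorem ffa_res_bc_smul (ξ : R →ₐ[O] R') (b : R) (a : R ⊗[O] 𝒜) :
    ffa_bc 𝒜 ξ (b • a) = ξ b • ffa_bc 𝒜 ξ a := by
  induction a using TensorProduct.induction_on with
  | zero => simp
  | tmul r x =>
    simp only [TensorProduct.smul_tmul', smul_eq_mul, ffa_res_bc_tmul, map_mul]
  | add x y hx hy => simp only [smul_add, map_add, hx, hy]

/-- a unit-leading element stays unit-leading after base change -/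
theorem ffa_IsUL.bc {m : ℕ} {f : R ⊗[O] ↥(Λ m)} (hf : ffa_IsUL R Λ lead m f) (ξ : R →ₐ[O] R') :
    ffa_IsUL R' Λ lead m (ffa_bcΛ Λ ξ m f) := by
  unfold ffa_IsUL at hf ⊢
  rw [ffa_leadR_bcΛ]
  exact hf.map (ffa_bcC C ξ)

/-- the lattice `L(J)` maps into the lattice of the fibre -/
theorem ffa_bcΛ_mem_L (ξ : R →ₐ[O] R') {m : ℕ} {J : Ideal (R ⊗[O] 𝒜)} {u : R ⊗[O] ↥(Λ m)}
    (hu : u ∈ ffa_L R Λ m J) : ffa_bcΛ Λ ξ m u ∈ ffa_L R' Λ m (ffa_fibre ξ J) := by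
  rw [ffa_mem_L] at hu ⊢
  rw [ffa_incl_bcΛ]
  exact Ideal.mem_map_of_mem _ hu

end Defs

section Field

variable {O : Type} [CommRing O] {𝒜 : Type} [CommRing 𝒜] [Algebra O 𝒜]
  {C : Type} [CommRing C] [Algebra O C] (k : Type) [Field k] [Algebra O k]
  (Λ : ℕ → Submodule O 𝒜) (lead : ∀ m, ↥(Λ m) →ₗ[O] C)

theorem ffa_incl_eq_ff_incl (m : ℕ) : ffa_incl k Λ m = ff_incl O 𝒜 k Λ m := rfl

theorem ffa_leadR_eq_ff_leadk (m : ℕ) : ffa_leadR k Λ lead m = ff_leadk O 𝒜 C k Λ lead m := rfl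

end Field

end Fermat.Agent.FF
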