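/-
Project FF (S19), cell [ADD], sub-cell [A-RES] (`ffa_SeamRES`): THE SUB-SEAMS
(sub-architect: helper9).  Prefix `ffa_res_`.  Imports Mathlib + FF/Add/Seams + FF/Add/Res/Defs.

ROUTE (no localisation, no invertibility lemma): every freeness statement over the nice base `B` is
obtained from a FIBRE-DIMENSION COUNT at the points `ξK t : B → Kb`, `ξκ t : B → κ`
(`ffr_exists_basis'`, `ffr_map` of FF/Rank.lean), where `k ⊗ 𝒜` is a Dedekind domain with residue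
fields `k` and colengths are additive (FF/Dict/Quot.lean).

* `ffa_IsGood Λ lead m0 R` : `R` is a good base for the lattice calculus (`R ⊗ Λ m ↪ R ⊗ 𝒜`, the
  leading-term sequences are exact from `m0` on) — true for flat `R` and for `R = κ`;
* `ffa_IsFib Λ lead g n m0 k` : `k` is a fibre field (good, `k ⊗ 𝒜` Dedekind with residue fields `k`,
  `dim k ⊗ Λ m = m n + 1 - g`, `k ⊗ 𝒜` of infinite dimension) — true for `Kb` and `κ`;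
* `ffa_res_SeamFIB`   [FIB]  : the package gives the two fibre fields and goodness of flat bases;
* `ffa_res_SeamLAT`   [LAT]  : the lattice calculus over a good base (mul, exh, DIV, B3-generation);
* `ffa_res_SeamB3`    [B3]   : for a fibre field, `dim (k ⊗ 𝒜)/(f) = m n` for unit-leading `f`;
* `ffa_res_SeamTOOL`  [TOOL] : the nice-base criteria (FREE, KER, UNIT) in instance-free form;
* `ffa_res_SeamPRIN`  [PRIN] : `(f)` is a relative divisor of degree `m n` (`f` unit-leading);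
* `ffa_res_SeamCOLON` [COLON]: `(f) : J` is a relative divisor of degree `m n - d`, and
                               `((f) : J)_ξ · J_ξ = (f_ξ)` at every point;
* `ffa_res_SeamSTEP1` [STEP1]: a relative divisor contains a unit-leading `f ∈ B ⊗ Λ m`, `m ≫ 0`;
* `ffa_res_SeamSTEP2` [STEP2]: the fibrewise computation `L(m·cusps − G − E₀) = k · x₀`.
`FF/Add/Res/Main.lean`: these (+ `ffa_SeamMUL`) imply `ffa_SeamRES`.
-/
import Mathlib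
import Fermat.Agent.FF.Add.Seams
import Fermat.Agent.FF.Add.Res.Defs

set_option autoImplicit false

noncomputable section

namespace Fermat.Agent.FF

open scoped TensorProduct

section Vocabulary

variable {O : Type} [CommRing O] {𝒜 : Type} [CommRing 𝒜] [Algebra O 𝒜]
  {C : Type} [CommRing C] [Algebra O C]
  (Λ : ℕ → Submodule O 𝒜) (lead : ∀ m, ↥(Λ m) →ₗ[O] C)

/-- `R` is a **good base** for the lattice calculus: the lattices `R ⊗ Λ m` inject into `R ⊗ 𝒜`,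
and an element of `R ⊗ Λ (m+1)` with zero leading term comes from `R ⊗ Λ m` (for `m ≥ m0`). -/
structure ffa_IsGood (m0 : ℕ) (R : Type) [CommRing R] [Algebra O R] : Prop where
  inj : ∀ m, Function.Injective (ffa_incl R Λ m)
  exact : ∀ m, m0 ≤ m → ∀ u : R ⊗[O] ↥(Λ (m + 1)), ffa_leadR R Λ lead (m + 1) u = 0 →
    ∃ v : R ⊗[O] ↥(Λ m), ffa_incl R Λ m v = ffa_incl R Λ (m + 1) u

/-- `k` is a **fibre field** of the package. -/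
structure ffa_IsFib (g n m0 : ℕ) (k : Type) [Field k] [Algebra O k] : Prop where
  good : ffa_IsGood Λ lead m0 k
  ded : IsDedekindDomain (k ⊗[O] 𝒜)
  res : ∀ P : Ideal (k ⊗[O] 𝒜), P.IsMaximal → P ≠ ⊥ →
    Function.Surjective (algebraMap k ((k ⊗[O] 𝒜) ⧸ P))
  fin : ∀ m, Module.Finite k (k ⊗[O] ↥(Λ m))
  rank : ∀ m, m0 ≤ m → Module.finrank k (k ⊗[O] ↥(Λ m)) + g = m * n + 1
  notfin : ¬ Module.Finite k (k ⊗[O] 𝒜)

end Vocabulary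

/-- **[FIB]** the package provides the two fibre fields `Kb`, `κ`, goodness of every flat base, and
`0 < n`. -/
def ffa_res_SeamFIB : Prop :=
  ∀ (O : Type) [CommRing O] [IsDomain O] [IsDiscreteValuationRing O]
    (𝒜 : Type) [CommRing 𝒜] [Algebra O 𝒜] (C : Type) [CommRing C] [Algebra O C] (π : O)
    (Kb : Type) [Field Kb] [IsAlgClosed Kb] [Algebra O Kb]
    (κ : Type) [Field κ] [IsAlgClosed κ] [Algebra O κ]
    (Λ : ℕ → Submodule O 𝒜) (lead : ∀ m, ↥(Λ m) →ₗ[O] C) (g n m0 c0 : ℕ),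
    ff_IsPkg O 𝒜 C π Kb κ Λ lead g n m0 c0 →
    ffa_IsFib Λ lead g n m0 Kb ∧ ffa_IsFib Λ lead g n m0 κ ∧ 0 < n ∧
    (∀ m, Module.Finite O ↥(Λ m) ∧ Module.Free O ↥(Λ m)) ∧
    ∀ (R : Type) [CommRing R] [Algebra O R] [Module.Flat O R], ffa_IsGood Λ lead m0 R

/-- **[LAT]** the lattice calculus over a base `R`:
* `mul`  : products (`incl` and leading terms are multiplicative);
* `up`   : `R ⊗ Λ a → R ⊗ Λ b` for `a ≤ b`, with zero leading term if `a < b`;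
* `exh`  : the lattices exhaust `R ⊗ 𝒜`;
* `div`  : (DIV) over a good base: `f` unit-leading in `R ⊗ Λ s`, `f w ∈ R ⊗ Λ (j+s)`, `j ≥ m0`
           `⟹ w ∈ R ⊗ Λ j`;
* `gen`  : (B3, generation) over a good base: `f` unit-leading in `R ⊗ Λ m`, `s ≥ m0`
           `⟹ R ⊗ 𝒜 = R ⊗ Λ (s+m) + f · (R ⊗ 𝒜)`. -/
def ffa_res_SeamLAT : Prop :=
  ∀ (O : Type) [CommRing O] [IsDomain O] [IsDiscreteValuationRing O]
    (𝒜 : Type) [CommRing 𝒜] [Algebra O 𝒜] (C : Type) [CommRing C] [Algebra O C] (π : O)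
    (Kb : Type) [Field Kb] [IsAlgClosed Kb] [Algebra O Kb]
    (κ : Type) [Field κ] [IsAlgClosed κ] [Algebra O κ]
    (Λ : ℕ → Submodule O 𝒜) (lead : ∀ m, ↥(Λ m) →ₗ[O] C) (g n m0 c0 : ℕ),
    ff_IsPkg O 𝒜 C π Kb κ Λ lead g n m0 c0 →
  ∀ (R : Type) [CommRing R] [Algebra O R],
    (∀ (a b : ℕ) (x : R ⊗[O] ↥(Λ a)) (y : R ⊗[O] ↥(Λ b)), ∃ z : R ⊗[O] ↥(Λ (a + b)),
      ffa_incl R Λ (a + b) z = ffa_incl R Λ a x * ffa_incl R Λ b y ∧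
      ffa_leadR R Λ lead (a + b) z = ffa_leadR R Λ lead a x * ffa_leadR R Λ lead b y) ∧
    (∀ (a b : ℕ), a ≤ b → ∀ x : R ⊗[O] ↥(Λ a), ∃ z : R ⊗[O] ↥(Λ b),
      ffa_incl R Λ b z = ffa_incl R Λ a x ∧ (a < b → ffa_leadR R Λ lead b z = 0)) ∧
    (∀ w : R ⊗[O] 𝒜, ∃ (m : ℕ) (x : R ⊗[O] ↥(Λ m)), ffa_incl R Λ m x = w) ∧
    (ffa_IsGood Λ lead m0 R → ∀ (s j : ℕ) (f : R ⊗[O] ↥(Λ s)) (w : R ⊗[O] 𝒜),
      ffa_IsUL R Λ lead s f → m0 ≤ j →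
      (∃ y : R ⊗[O] ↥(Λ (j + s)), ffa_incl R Λ (j + s) y = ffa_incl R Λ s f * w) →
      ∃ x : R ⊗[O] ↥(Λ j), ffa_incl R Λ j x = w) ∧
    (ffa_IsGood Λ lead m0 R → ∀ (m s : ℕ) (f : R ⊗[O] ↥(Λ m)), ffa_IsUL R Λ lead m f → m0 ≤ s →
      ∀ w : R ⊗[O] 𝒜, ∃ (u : R ⊗[O] ↥(Λ (s + m))) (b : R ⊗[O] 𝒜),
        w = ffa_incl R Λ (s + m) u + ffa_incl R Λ m f * b)

/-- **[B3]** on a fibre: for a unit-leading `f ∈ k ⊗ Λ m`, `f ≠ 0` and `(k ⊗ 𝒜)/(f)` has dimension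
`m n`. -/
def ffa_res_SeamB3 : Prop :=
  ∀ (O : Type) [CommRing O] [IsDomain O] [IsDiscreteValuationRing O]
    (𝒜 : Type) [CommRing 𝒜] [Algebra O 𝒜] (C : Type) [CommRing C] [Algebra O C] (π : O)
    (Kb : Type) [Field Kb] [IsAlgClosed Kb] [Algebra O Kb]
    (κ : Type) [Field κ] [IsAlgClosed κ] [Algebra O κ]
    (Λ : ℕ → Submodule O 𝒜) (lead : ∀ m, ↥(Λ m) →ₗ[O] C) (g n m0 c0 : ℕ),
    ff_IsPkg O 𝒜 C π Kb κ Λ lead g n m0 c0 →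
  ∀ (k : Type) [Field k] [Algebra O k], ffa_IsFib Λ lead g n m0 k →
  ∀ (m : ℕ) (f : k ⊗[O] ↥(Λ m)), ffa_IsUL k Λ lead m f →
    ffa_incl k Λ m f ≠ 0 ∧
    Module.Finite k ((k ⊗[O] 𝒜) ⧸ Ideal.span {ffa_incl k Λ m f}) ∧
    Module.finrank k ((k ⊗[O] 𝒜) ⧸ Ideal.span {ffa_incl k Λ m f}) = m * n

/-- **[TOOL]** the criteria over a nice base, in instance-free form:
* `free` : an ideal `J` with `B`-finite quotient whose fibres at all points have colength `d` is a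
           relative divisor of degree `d`;
* `ker`  : if the lattices `L_ξ(m, J_ξ)` of the fibres of a relative divisor `J` all have dimension
           `e`, then `L_B(m, J)` is free of rank `e` and spans the lattice of every fibre;
* `unit` : an element of `B ⊗ C` which is a unit at every closed point is a unit. -/
def ffa_res_SeamTOOL : Prop :=
  ∀ (O : Type) [CommRing O] [IsDomain O] [IsDiscreteValuationRing O]
    (𝒜 : Type) [CommRing 𝒜] [Algebra O 𝒜] (C : Type) [CommRing C] [Algebra O C] (π : O)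
    (Kb : Type) [Field Kb] [IsAlgClosed Kb] [Algebra O Kb]
    (κ : Type) [Field κ] [IsAlgClosed κ] [Algebra O κ]
    (Λ : ℕ → Submodule O 𝒜) (lead : ∀ m, ↥(Λ m) →ₗ[O] C) (g n m0 c0 : ℕ),
    ff_IsPkg O 𝒜 C π Kb κ Λ lead g n m0 c0 →
  ∀ (B : Type) [CommRing B] [Algebra O B] [Nontrivial B] (Ξ : Type)
    (ξK : Ξ → B →ₐ[O] Kb) (ξκ : Ξ → B →ₐ[O] κ), ffa_IsNice O Kb κ B Ξ ξK ξκ →
    (∀ (J : Ideal (B ⊗[O] 𝒜)) (d : ℕ), Module.Finite B ((B ⊗[O] 𝒜) ⧸ J) →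
      (∀ t, Module.finrank Kb ((Kb ⊗[O] 𝒜) ⧸ ffa_fibre (ξK t) J) = d) →
      (∀ t, Module.finrank κ ((κ ⊗[O] 𝒜) ⧸ ffa_fibre (ξκ t) J) = d) →
      ffa_IsRelDiv O 𝒜 B J d) ∧
    (∀ (J : Ideal (B ⊗[O] 𝒜)) (d m e : ℕ), ffa_IsRelDiv O 𝒜 B J d →
      (∀ t, Module.finrank Kb ↥(ffa_L Kb Λ m (ffa_fibre (ξK t) J)) = e) →
      (∀ t, Module.finrank κ ↥(ffa_L κ Λ m (ffa_fibre (ξκ t) J)) = e) →
      Nonempty (Module.Basis (Fin e) B ↥(ffa_L B Λ m J)) ∧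
      (∀ t, (ffa_L Kb Λ m (ffa_fibre (ξK t) J) : Set (Kb ⊗[O] ↥(Λ m))) ⊆
        Submodule.span Kb (ffa_bcΛ Λ (ξK t) m '' (ffa_L B Λ m J : Set (B ⊗[O] ↥(Λ m))))) ∧
      (∀ t, (ffa_L κ Λ m (ffa_fibre (ξκ t) J) : Set (κ ⊗[O] ↥(Λ m))) ⊆
        Submodule.span κ (ffa_bcΛ Λ (ξκ t) m '' (ffa_L B Λ m J : Set (B ⊗[O] ↥(Λ m)))))) ∧
    (∀ c : B ⊗[O] C, (∀ t, IsUnit (ffa_bcC C (ξκ t) c)) → IsUnit c)

/-- **[PRIN]** over a nice base, the ideal of a unit-leading `f ∈ B ⊗ Λ m` is a relative divisor of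
degree `m n`. -/
def ffa_res_SeamPRIN : Prop :=
  ∀ (O : Type) [CommRing O] [IsDomain O] [IsDiscreteValuationRing O]
    (𝒜 : Type) [CommRing 𝒜] [Algebra O 𝒜] (C : Type) [CommRing C] [Algebra O C] (π : O)
    (Kb : Type) [Field Kb] [IsAlgClosed Kb] [Algebra O Kb]
    (κ : Type) [Field κ] [IsAlgClosed κ] [Algebra O κ]
    (Λ : ℕ → Submodule O 𝒜) (lead : ∀ m, ↥(Λ m) →ₗ[O] C) (g n m0 c0 : ℕ),
    ff_IsPkg O 𝒜 C π Kb κ Λ lead g n m0 c0 →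
  ∀ (B : Type) [CommRing B] [Algebra O B] [Nontrivial B] (Ξ : Type)
    (ξK : Ξ → B →ₐ[O] Kb) (ξκ : Ξ → B →ₐ[O] κ), ffa_IsNice O Kb κ B Ξ ξK ξκ →
  ∀ (m : ℕ) (f : B ⊗[O] ↥(Λ m)), ffa_IsUL B Λ lead m f →
    ffa_IsRelDiv O 𝒜 B (Ideal.span {ffa_incl B Λ m f}) (m * n)

/-- **[COLON]** over a nice base: `f ∈ B ⊗ Λ m` unit-leading, `J ∋ f` a relative divisor of degree
`d`.  Then `(f) : J` is a relative divisor of degree `m n - d` and at every point `ξ` its fibre is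
the complement of `J_ξ` in `(f_ξ)`: `((f) : J)_ξ · J_ξ = (f_ξ)`. -/
def ffa_res_SeamCOLON : Prop :=
  ∀ (O : Type) [CommRing O] [IsDomain O] [IsDiscreteValuationRing O]
    (𝒜 : Type) [CommRing 𝒜] [Algebra O 𝒜] (C : Type) [CommRing C] [Algebra O C] (π : O)
    (Kb : Type) [Field Kb] [IsAlgClosed Kb] [Algebra O Kb]
    (κ : Type) [Field κ] [IsAlgClosed κ] [Algebra O κ]
    (Λ : ℕ → Submodule O 𝒜) (lead : ∀ m, ↥(Λ m) →ₗ[O] C) (g n m0 c0 : ℕ),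
    ff_IsPkg O 𝒜 C π Kb κ Λ lead g n m0 c0 →
  ∀ (B : Type) [CommRing B] [Algebra O B] [Nontrivial B] (Ξ : Type)
    (ξK : Ξ → B →ₐ[O] Kb) (ξκ : Ξ → B →ₐ[O] κ), ffa_IsNice O Kb κ B Ξ ξK ξκ →
  ∀ (m : ℕ) (f : B ⊗[O] ↥(Λ m)), ffa_IsUL B Λ lead m f →
  ∀ (J : Ideal (B ⊗[O] 𝒜)) (d : ℕ), ffa_IsRelDiv O 𝒜 B J d → ffa_incl B Λ m f ∈ J →
    ffa_IsRelDiv O 𝒜 B ((Ideal.span {ffa_incl B Λ m f}).colon (J : Set (B ⊗[O] 𝒜))) (m * n - d) ∧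
    d ≤ m * n ∧
    (∀ t, ffa_fibre (ξK t) ((Ideal.span {ffa_incl B Λ m f}).colon (J : Set (B ⊗[O] 𝒜))) *
        ffa_fibre (ξK t) J = Ideal.span {ffa_incl Kb Λ m (ffa_bcΛ Λ (ξK t) m f)}) ∧
    (∀ t, ffa_fibre (ξκ t) ((Ideal.span {ffa_incl B Λ m f}).colon (J : Set (B ⊗[O] 𝒜))) *
        ffa_fibre (ξκ t) J = Ideal.span {ffa_incl κ Λ m (ffa_bcΛ Λ (ξκ t) m f)})

/-- **[STEP1]** over a nice base, a relative divisor `J` of degree `d` contains a unit-leading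
`f ∈ B ⊗ Λ m` as soon as `m ≥ m0 + 1` and `(m - 1) n ≥ d + c0`. -/
def ffa_res_SeamSTEP1 : Prop :=
  ∀ (O : Type) [CommRing O] [IsDomain O] [IsDiscreteValuationRing O]
    (𝒜 : Type) [CommRing 𝒜] [Algebra O 𝒜] (C : Type) [CommRing C] [Algebra O C] (π : O)
    (Kb : Type) [Field Kb] [IsAlgClosed Kb] [Algebra O Kb]
    (κ : Type) [Field κ] [IsAlgClosed κ] [Algebra O κ]
    (Λ : ℕ → Submodule O 𝒜) (lead : ∀ m, ↥(Λ m) →ₗ[O] C) (g n m0 c0 : ℕ),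
    ff_IsPkg O 𝒜 C π Kb κ Λ lead g n m0 c0 →
  ∀ (B : Type) [CommRing B] [Algebra O B] [Nontrivial B] (Ξ : Type)
    (ξK : Ξ → B →ₐ[O] Kb) (ξκ : Ξ → B →ₐ[O] κ), ffa_IsNice O Kb κ B Ξ ξK ξκ →
  ∀ (J : Ideal (B ⊗[O] 𝒜)) (d m : ℕ), ffa_IsRelDiv O 𝒜 B J d → m0 + 1 ≤ m →
    d + c0 ≤ (m - 1) * n →
    ∃ f : B ⊗[O] ↥(Λ m), ffa_IsUL B Λ lead m f ∧ ffa_incl B Λ m f ∈ J

/-- **[STEP2]** the fibrewise computation.  `k` a fibre field, `I'`, `I₀'`, `G'`, `T` ideals of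
`k ⊗ 𝒜` with `G' · I' = (f₁)` (`f₁ ∈ k ⊗ Λ m` unit-leading, `m ≥ m0`), `T + I₀' ∼ I'` and
`l(T) = 1`.  Then `L(m·cusps − G' − I₀') = k · x₀` with `x₀` unit-leading and
`(x₀) = T · G' · I₀'`. -/
def ffa_res_SeamSTEP2 : Prop :=
  ∀ (O : Type) [CommRing O] [IsDomain O] [IsDiscreteValuationRing O]
    (𝒜 : Type) [CommRing 𝒜] [Algebra O 𝒜] (C : Type) [CommRing C] [Algebra O C] (π : O)
    (Kb : Type) [Field Kb] [IsAlgClosed Kb] [Algebra O Kb]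
    (κ : Type) [Field κ] [IsAlgClosed κ] [Algebra O κ]
    (Λ : ℕ → Submodule O 𝒜) (lead : ∀ m, ↥(Λ m) →ₗ[O] C) (g n m0 c0 : ℕ),
    ff_IsPkg O 𝒜 C π Kb κ Λ lead g n m0 c0 →
  ∀ (k : Type) [Field k] [Algebra O k], ffa_IsFib Λ lead g n m0 k →
  ∀ (I' I₀' G' T : Ideal (k ⊗[O] 𝒜)) (m : ℕ) (f₁ : k ⊗[O] ↥(Λ m)), m0 ≤ m →
    ffa_IsUL k Λ lead m f₁ → G' * I' = Ideal.span {ffa_incl k Λ m f₁} →
    ff_LinEq O 𝒜 C k Λ lead T I₀' I' ⊤ → ff_Uniq O 𝒜 C k Λ lead T →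
    ∃ x₀ : k ⊗[O] ↥(Λ m), ffa_IsUL k Λ lead m x₀ ∧
      Ideal.span {ffa_incl k Λ m x₀} = T * (G' * I₀') ∧
      ∀ u : k ⊗[O] ↥(Λ m), ffa_incl k Λ m u ∈ G' * I₀' → ∃ c : k, u = c • x₀

end Fermat.Agent.FF
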