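/-
Project FF (S19), cell [ADD], sub-cell [A-RES]: NICE BASES (helper9).  Prefix `ffa_nice_`.
Imports Mathlib + FF/Add/Seams + FF/Rank.

For a nice base `(B; ξK, ξκ)` (`ffa_IsNice`): `B` is reduced and semilocal, every minimal prime
contains the kernel of a generic point, every maximal ideal is the kernel of a closed point; hence
the criteria of FF/Rank.lean can be checked AT THE POINTS:
* `ffa_nice_exists_basis` : a finite `B`-module with fibre dimension `d` at all points has a basis of
                            `d` elements;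
* `ffa_nice_map`          : a map of finite free `B`-modules with fibre rank `r` at all points has
                            free kernel, range, cokernel and a generalised inverse;
* `ffa_nice_surjective`   : Nakayama at the closed points.
The fibre at a point `ξ : B →ₐ[O] k` is `k ⊗[B] M` for the algebra structure
`ξ.toRingHom.toAlgebra` (a `letI` in the statements).
-/
import Mathlib
import Fermat.Agent.FF.Add.Seams
import Fermat.Agent.FF.Rank

set_option autoImplicit false
set_option linter.style.haveILetI false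
set_option linter.unusedSectionVars false

noncomputable section

namespace Fermat.Agent.FF

open scoped TensorProduct
open Module

universe v w

section Nice

variable {O : Type} [CommRing O] {Kb : Type} [Field Kb] [Algebra O Kb]
  {κ : Type} [Field κ] [Algebra O κ]
  {B : Type} [CommRing B] [Algebra O B] {Ξ : Type}
  {ξK : Ξ → B →ₐ[O] Kb} {ξκ : Ξ → B →ₐ[O] κ}
  (nice : ffa_IsNice O Kb κ B Ξ ξK ξκ)

include nice

theorem ffa_nice_isReduced : IsReduced B := by
  refine ⟨fun b hb => ?_⟩
  obtain ⟨n, hn⟩ := hb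
  refine nice.inj b fun t => ?_
  have h : (ξK t b) ^ n = 0 := by rw [← map_pow, hn, map_zero]
  exact eq_zero_of_pow_eq_zero h

theorem ffa_nice_finite_maximalSpectrum : Finite (MaximalSpectrum B) := by
  haveI := nice.finΞ
  have h : ∀ P : MaximalSpectrum B, ∃ t, P.asIdeal = RingHom.ker (ξκ t) :=
    fun P => nice.max P.asIdeal P.isMaximal
  choose τ hτ using h
  refine Finite.of_injective τ fun P Q hPQ => ?_
  apply MaximalSpectrum.ext
  rw [hτ P, hτ Q, hPQ]

/-- every minimal prime of a nice base contains the kernel of a generic point -/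
theorem ffa_nice_minimalPrime (𝔭 : Ideal B) (h𝔭 : 𝔭 ∈ minimalPrimes B) :
    ∃ t, RingHom.ker (ξK t) ≤ 𝔭 := by
  classical
  haveI := nice.finΞ
  haveI := Fintype.ofFinite Ξ
  have hprime : 𝔭.IsPrime := h𝔭.1.1
  by_contra hcon
  rw [not_exists] at hcon
  have hex : ∀ t, ∃ b, b ∈ RingHom.ker (ξK t) ∧ b ∉ 𝔭 := fun t => Set.not_subset.mp (hcon t)
  choose b hb1 hb2 using hex
  have h0 : (∏ t, b t) = 0 := by
    refine nice.inj _ fun t => ?_
    rw [map_prod]
    exact Finset.prod_eq_zero (Finset.mem_univ t) (hb1 t)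
  have h1 : (∏ t, b t) ∈ 𝔭 := by rw [h0]; exact zero_mem _
  obtain ⟨t, -, ht⟩ := (Ideal.IsPrime.prod_mem_iff (hp := hprime)).mp h1
  exact hb2 t ht

/-- a nontrivial nice base has a point -/
theorem ffa_nice_nonempty [Nontrivial B] : Nonempty Ξ := by
  by_contra h
  rw [not_nonempty_iff] at h
  exact one_ne_zero (nice.inj (1 : B) fun t => h.elim t)

/-- **(FREE)** a finite module over a nice base with the same fibre dimension at all points has a
basis. -/
theorem ffa_nice_exists_basis {M : Type v} [AddCommGroup M] [Module B M] [Module.Finite B M]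
    (d : ℕ)
    (hK : ∀ t, letI := (ξK t).toRingHom.toAlgebra; finrank Kb (Kb ⊗[B] M) = d)
    (hκ : ∀ t, letI := (ξκ t).toRingHom.toAlgebra; finrank κ (κ ⊗[B] M) = d) :
    Nonempty (Basis (Fin d) B M) := by
  haveI := ffa_nice_isReduced nice
  haveI := ffa_nice_finite_maximalSpectrum nice
  refine ffr_exists_basis'.{0, v, 0} d ?_ ?_
  · intro 𝔪 h𝔪
    obtain ⟨t, ht⟩ := nice.max 𝔪 h𝔪
    refine ⟨κ, inferInstance, (ξκ t).toRingHom.toAlgebra, ?_, hκ t⟩
    rw [ht]
    exact le_rfl
  · intro 𝔭 h𝔭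
    obtain ⟨t, ht⟩ := ffa_nice_minimalPrime nice 𝔭 h𝔭
    exact ⟨Kb, inferInstance, (ξK t).toRingHom.toAlgebra, ht, hK t⟩

end Nice

section RankExt

variable {B : Type} [CommRing B] {P : Type v} {Q : Type w} [AddCommGroup P] [Module B P]
  [AddCommGroup Q] [Module B Q] [Module.Finite B Q]

/-- the rank of the fibre of a map does not change under field extension -/
theorem ffa_nice_rank_ext (φ : P →ₗ[B] Q) (K K' : Type) [Field K] [Field K'] [Algebra B K]
    [Algebra B K'] [Algebra K K'] [IsScalarTower B K K'] :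
    finrank K' (LinearMap.range (φ.baseChange K')) = finrank K (LinearMap.range (φ.baseChange K)) := by
  have h1 := ffr_coker_fibre φ K
  have h2 := ffr_coker_fibre φ K'
  have h3 : finrank K' (K' ⊗[B] Q) = finrank K (K ⊗[B] Q) := ffr_fibre_eq K K'
  have h4 : finrank K' (K' ⊗[B] (Q ⧸ LinearMap.range φ)) =
      finrank K (K ⊗[B] (Q ⧸ LinearMap.range φ)) := ffr_fibre_eq K K'
  omega

end RankExt

section Map

variable {O : Type} [CommRing O] {Kb : Type} [Field Kb] [Algebra O Kb]
  {κ : Type} [Field κ] [Algebra O κ]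
  {B : Type} [CommRing B] [Algebra O B] {Ξ : Type}
  {ξK : Ξ → B →ₐ[O] Kb} {ξκ : Ξ → B →ₐ[O] κ}
  (nice : ffa_IsNice O Kb κ B Ξ ξK ξκ)
  {P : Type v} {Q : Type w} [AddCommGroup P] [Module B P] [Module.Finite B P] [Module.Free B P]
  [AddCommGroup Q] [Module B Q] [Module.Finite B Q] [Module.Free B Q]

include nice

/-- the rank at a maximal ideal is the rank at a closed point -/
theorem ffa_nice_rank_max (φ : P →ₗ[B] Q) (r : ℕ)
    (hκ : ∀ t, letI := (ξκ t).toRingHom.toAlgebra;
      finrank κ (LinearMap.range (φ.baseChange κ)) = r)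
    (𝔪 : Ideal B) (h𝔪 : 𝔪.IsMaximal) :
    finrank (B ⧸ 𝔪) (LinearMap.range (φ.baseChange (B ⧸ 𝔪))) = r := by
  obtain ⟨t, ht⟩ := nice.max 𝔪 h𝔪
  letI := (ξκ t).toRingHom.toAlgebra
  letI := Ideal.Quotient.field 𝔪
  letI : Algebra (B ⧸ 𝔪) κ :=
    (Ideal.Quotient.lift 𝔪 (algebraMap B κ) (fun a ha => by
      rw [ht] at ha
      exact ha)).toAlgebra
  haveI : IsScalarTower B (B ⧸ 𝔪) κ := IsScalarTower.of_algebraMap_eq' (by
    ext a
    rfl)
  rw [← hκ t]
  exact (ffa_nice_rank_ext φ (B ⧸ 𝔪) κ).symm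

/-- **(MAP)** a map of finite free modules over a nontrivial nice base whose fibres at all points
have rank `r`: cokernel, range, kernel are free, and there is a generalised inverse. -/
theorem ffa_nice_map [Nontrivial B] (φ : P →ₗ[B] Q) (r : ℕ)
    (hK : ∀ t, letI := (ξK t).toRingHom.toAlgebra;
      finrank Kb (LinearMap.range (φ.baseChange Kb)) = r)
    (hκ : ∀ t, letI := (ξκ t).toRingHom.toAlgebra;
      finrank κ (LinearMap.range (φ.baseChange κ)) = r) :
    Nonempty (Basis (Fin (finrank B Q - r)) B (Q ⧸ LinearMap.range φ)) ∧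
    Nonempty (Basis (Fin r) B (LinearMap.range φ)) ∧
    Nonempty (Basis (Fin (finrank B P - r)) B (LinearMap.ker φ)) ∧
    ∃ ψ : Q →ₗ[B] P, φ ∘ₗ ψ ∘ₗ φ = φ := by
  haveI := ffa_nice_isReduced nice
  haveI := ffa_nice_finite_maximalSpectrum nice
  have hmax := ffa_nice_rank_max nice φ r hκ
  obtain ⟨bC⟩ : Nonempty (Basis (Fin (finrank B Q - r)) B (Q ⧸ LinearMap.range φ)) := by
    refine ffa_nice_exists_basis nice (finrank B Q - r) ?_ ?_
    · intro t
      letI := (ξK t).toRingHom.toAlgebra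
      have h1 := ffr_coker_fibre φ Kb
      have h2 : finrank Kb (Kb ⊗[B] Q) = finrank B Q := Module.finrank_baseChange
      have h3 := hK t
      omega
    · intro t
      letI := (ξκ t).toRingHom.toAlgebra
      have h1 := ffr_coker_fibre φ κ
      have h2 : finrank κ (κ ⊗[B] Q) = finrank B Q := Module.finrank_baseChange
      have h3 := hκ t
      omega
  haveI : Module.Free B (Q ⧸ LinearMap.range φ) := Module.Free.of_basis bC
  obtain ⟨ψ, hψ⟩ := ffr_exists_geninv φ
  haveI : Module.Projective B (LinearMap.range φ) := ffr_projective_range hψ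
  haveI : Module.Projective B (LinearMap.ker φ) := ffr_projective_ker hψ
  haveI : Module.Finite B (LinearMap.ker φ) := ffr_finite_ker hψ
  refine ⟨⟨bC⟩, ?_, ?_, ψ, hψ⟩
  · refine Module.nonempty_basis_of_flat_of_finrank_eq B (LinearMap.range φ) r fun 𝔪 => ?_
    letI := Ideal.Quotient.field 𝔪.asIdeal
    rw [ffr_fibre_range hψ (B ⧸ 𝔪.asIdeal)]
    exact hmax 𝔪.asIdeal 𝔪.isMaximal
  · refine Module.nonempty_basis_of_flat_of_finrank_eq B (LinearMap.ker φ) (finrank B P - r)
      fun 𝔪 => ?_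
    letI := Ideal.Quotient.field 𝔪.asIdeal
    have h1 := ffr_fibre_ker hψ (B ⧸ 𝔪.asIdeal)
    have h2 : finrank (B ⧸ 𝔪.asIdeal) ((B ⧸ 𝔪.asIdeal) ⊗[B] P) = finrank B P :=
      Module.finrank_baseChange
    have h3 := hmax 𝔪.asIdeal 𝔪.isMaximal
    omega

end Map

section Surj

variable {O : Type} [CommRing O] {Kb : Type} [Field Kb] [Algebra O Kb]
  {κ : Type} [Field κ] [Algebra O κ]
  {B : Type} [CommRing B] [Algebra O B] {Ξ : Type}
  {ξK : Ξ → B →ₐ[O] Kb} {ξκ : Ξ → B →ₐ[O] κ}
  (nice : ffa_IsNice O Kb κ B Ξ ξK ξκ)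
  {P : Type v} {Q : Type w} [AddCommGroup P] [Module B P]
  [AddCommGroup Q] [Module B Q] [Module.Finite B Q]

include nice

/-- **(SURJ)** Nakayama at the closed points of a nice base. -/
theorem ffa_nice_surjective (φ : P →ₗ[B] Q)
    (hκ : ∀ t, letI := (ξκ t).toRingHom.toAlgebra; Function.Surjective (φ.baseChange κ)) :
    Function.Surjective φ := by
  haveI := ffa_nice_finite_maximalSpectrum nice
  have hfib : ∀ 𝔪 : Ideal B, 𝔪.IsMaximal →
      finrank (B ⧸ 𝔪) ((B ⧸ 𝔪) ⊗[B] (Q ⧸ LinearMap.range φ)) = 0 := by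
    intro 𝔪 h𝔪
    obtain ⟨t, ht⟩ := nice.max 𝔪 h𝔪
    letI := (ξκ t).toRingHom.toAlgebra
    haveI := h𝔪
    have hker : 𝔪 ≤ RingHom.ker (algebraMap B κ) := by
      rw [ht]
      exact le_rfl
    rw [← ffr_fibre_quotient 𝔪 κ hker]
    have h1 := ffr_coker_fibre φ κ
    rw [LinearMap.range_eq_top.mpr (hκ t), finrank_top] at h1
    omega
  obtain ⟨b, hb⟩ := ffr_exists_span (M := Q ⧸ LinearMap.range φ) 0 hfib
  have hbot : (⊤ : Submodule B (Q ⧸ LinearMap.range φ)) = ⊥ := by
    refine le_antisymm (hb.trans ?_) bot_le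
    rw [Submodule.span_le]
    rintro _ ⟨k, -⟩
    exact k.elim0
  rw [← LinearMap.range_eq_top, eq_top_iff]
  intro y _
  have hy : (LinearMap.range φ).mkQ y ∈ (⊥ : Submodule B (Q ⧸ LinearMap.range φ)) := by
    rw [← hbot]
    exact Submodule.mem_top
  rw [Submodule.mem_bot, Submodule.mkQ_apply, Submodule.Quotient.mk_eq_zero] at hy
  exact hy

end Surj

end Fermat.Agent.FF
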