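/-
Project FF (S19), cell [ADD], sub-cell [A-RES]: THE TOOLBOX over a nice base, part 1 (helper9).
Prefix `ffa_tool_`.  Imports Mathlib + FF/Add/Res/{Seams, Nice} + FF/Add/BCEquiv.

* `ffa_tool_tower`      : the scalar tower `O → B → k` of a point `ξ : B →ₐ[O] k`;
* `ffa_tool_unit`       : (UNIT) an element of `B ⊗ C` which is a unit at all closed points is a unit;
* `ffa_tool_phi`        : the map `R ⊗ Λ m → (R ⊗ 𝒜)/J` with kernel `ffa_L R Λ m J`;
* `ffa_tool_square`, `ffa_tool_rank_eq`, `ffa_tool_rank_add`, `ffa_tool_ker_span` : the fibre of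
  `ffa_tool_phi` at a point is `ffa_tool_phi` of the fibre (via `ffa_bce_linearEquiv` and
  `cancelBaseChange`), its rank, and base change of its kernel;
* `ffa_tool_finrank_fibre`, `ffa_tool_rank_point`, `ffa_tool_span_point` : the same for a bare
  point `ξ : B →ₐ[O] k` (the algebra structure is a `letI`);
* `ffa_tool_free` (FREE), `ffa_tool_ker` (KER) : the criteria over a nice base;
* `ffa_res_tool : ffa_res_SeamFIB → ffa_res_SeamTOOL`.
-/
import Mathlib
import Fermat.Agent.FF.Add.Res.Seams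
import Fermat.Agent.FF.Add.Res.Nice
import Fermat.Agent.FF.Add.BCEquiv

set_option autoImplicit false
set_option linter.style.haveILetI false
set_option linter.unusedSectionVars false

noncomputable section

namespace Fermat.Agent.FF

open scoped TensorProduct
open Module

section Unit

variable {O : Type} [CommRing O] {C : Type} [CommRing C] [Algebra O C]
  {Kb : Type} [Field Kb] [Algebra O Kb]
  {κ : Type} [Field κ] [Algebra O κ]
  {B : Type} [CommRing B] [Algebra O B] {Ξ : Type}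
  {ξK : Ξ → B →ₐ[O] Kb} {ξκ : Ξ → B →ₐ[O] κ}

/-- the scalar tower of a point -/
theorem ffa_tool_tower {k : Type} [Field k] [Algebra O k] (ξ : B →ₐ[O] k) :
    letI := ξ.toRingHom.toAlgebra
    IsScalarTower O B k := by
  letI := ξ.toRingHom.toAlgebra
  exact IsScalarTower.of_algebraMap_eq (fun o => (ξ.commutes o).symm)

/-- under `k ⊗[B] (B ⊗[O] C) ≃ k ⊗[O] C`, multiplication by `c` becomes multiplication by the
image of `c`. -/
theorem ffa_tool_cancel_mul {k : Type} [Field k] [Algebra O k] [Algebra B k] [IsScalarTower O B k]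
    (ξ : B →ₐ[O] k) (hξ : ∀ b, algebraMap B k b = ξ b) (c : B ⊗[O] C) (z : k ⊗[B] (B ⊗[O] C)) :
    TensorProduct.AlgebraTensorModule.cancelBaseChange O B k k C
        ((LinearMap.mulLeft B c).baseChange k z) =
      ffa_bcC C ξ c * TensorProduct.AlgebraTensorModule.cancelBaseChange O B k k C z := by
  induction z using TensorProduct.induction_on with
  | zero => simp
  | add x y hx hy => simp only [map_add, hx, hy, mul_add]
  | tmul a y =>
    rw [LinearMap.baseChange_tmul, LinearMap.mulLeft_apply]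
    induction c using TensorProduct.induction_on with
    | zero => simp
    | add c1 c2 h1 h2 => simp only [add_mul, TensorProduct.tmul_add, map_add, h1, h2]
    | tmul b γ =>
      induction y using TensorProduct.induction_on with
      | zero => simp
      | add y1 y2 h1 h2 => simp only [mul_add, TensorProduct.tmul_add, map_add, h1, h2]
      | tmul b' γ' =>
        rw [Algebra.TensorProduct.tmul_mul_tmul,
          TensorProduct.AlgebraTensorModule.cancelBaseChange_tmul,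
          TensorProduct.AlgebraTensorModule.cancelBaseChange_tmul, ffa_bcC_tmul,
          Algebra.TensorProduct.tmul_mul_tmul, Algebra.smul_def, Algebra.smul_def, hξ, hξ, map_mul]
        ring_nf

variable (nice : ffa_IsNice O Kb κ B Ξ ξK ξκ)
include nice

/-- **(UNIT)** an element of `B ⊗ C` (`C` finite over `O`) which is a unit at every closed point
of the nice base `B` is a unit. -/
theorem ffa_tool_unit [Module.Finite O C] (c : B ⊗[O] C)
    (h : ∀ t, IsUnit (ffa_bcC C (ξκ t) c)) : IsUnit c := by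
  have hsurj : Function.Surjective (LinearMap.mulLeft B c) := by
    refine ffa_nice_surjective nice (LinearMap.mulLeft B c) fun t => ?_
    letI := (ξκ t).toRingHom.toAlgebra
    haveI : IsScalarTower O B κ := ffa_tool_tower (ξκ t)
    intro w
    set e := TensorProduct.AlgebraTensorModule.cancelBaseChange O B κ κ C with he
    obtain ⟨u, hu⟩ := h t
    refine ⟨e.symm (↑u⁻¹ * e w), ?_⟩
    apply e.injective
    rw [ffa_tool_cancel_mul (ξκ t) (fun b => rfl), LinearEquiv.apply_symm_apply, ← mul_assoc, ← hu,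
      Units.mul_inv, one_mul]
  obtain ⟨y, hy⟩ := hsurj 1
  rw [LinearMap.mulLeft_apply] at hy
  exact IsUnit.of_mul_eq_one _ hy

end Unit

section Point

variable {O : Type} [CommRing O] {𝒜 : Type} [CommRing 𝒜] [Algebra O 𝒜]
  {B : Type} [CommRing B] [Algebra O B]
  {k : Type} [Field k] [Algebra O k] [Algebra B k] [IsScalarTower O B k]
  (ξ : B →ₐ[O] k) (hξ : ∀ b, algebraMap B k b = ξ b)
  (Λ : ℕ → Submodule O 𝒜)

/-- the map `B ⊗ Λ m → (B ⊗ 𝒜)/J` whose kernel is `ffa_L B Λ m J` -/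
def ffa_tool_phi (R : Type) [CommRing R] [Algebra O R] (m : ℕ) (J : Ideal (R ⊗[O] 𝒜)) :
    R ⊗[O] ↥(Λ m) →ₗ[R] (R ⊗[O] 𝒜) ⧸ J :=
  (Ideal.Quotient.mkₐ R J).toLinearMap ∘ₗ ffa_incl R Λ m

theorem ffa_tool_phi_apply (R : Type) [CommRing R] [Algebra O R] (m : ℕ) (J : Ideal (R ⊗[O] 𝒜))
    (u : R ⊗[O] ↥(Λ m)) :
    ffa_tool_phi Λ R m J u = Ideal.Quotient.mk J (ffa_incl R Λ m u) := rfl

theorem ffa_tool_ker_phi (R : Type) [CommRing R] [Algebra O R] (m : ℕ) (J : Ideal (R ⊗[O] 𝒜)) :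
    LinearMap.ker (ffa_tool_phi Λ R m J) = ffa_L R Λ m J := by
  ext u
  rw [LinearMap.mem_ker, ffa_mem_L, ffa_tool_phi_apply]
  exact Ideal.Quotient.eq_zero_iff_mem

end Point

section PointTower

variable {O : Type} [CommRing O] {𝒜 : Type} [CommRing 𝒜] [Algebra O 𝒜]
  {B : Type} [CommRing B] [Algebra O B]
  {k : Type} [Field k] [Algebra O k] [Algebra B k] [IsScalarTower O B k]
  (Λ : ℕ → Submodule O 𝒜)

/-- `k ⊗[B] (B ⊗[O] Λ m) ≃ k ⊗[O] Λ m` sends `c ⊗ v` to `c • bcΛ v` -/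
theorem ffa_tool_cancel_tmul (m : ℕ) (c : k) (v : B ⊗[O] ↥(Λ m)) :
    TensorProduct.AlgebraTensorModule.cancelBaseChange O B k k ↥(Λ m) (c ⊗ₜ[B] v) =
      c • ffa_bcΛ Λ (IsScalarTower.toAlgHom O B k) m v := by
  induction v using TensorProduct.induction_on with
  | zero => simp
  | add x y hx hy => simp only [TensorProduct.tmul_add, map_add, hx, hy, smul_add]
  | tmul b x =>
    rw [TensorProduct.AlgebraTensorModule.cancelBaseChange_tmul, ffa_bcΛ_tmul,
      TensorProduct.smul_tmul', Algebra.smul_def, IsScalarTower.coe_toAlgHom', smul_eq_mul,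
      mul_comm]

variable (J : Ideal (B ⊗[O] 𝒜)) (m : ℕ)

theorem ffa_tool_square (z : k ⊗[B] (B ⊗[O] ↥(Λ m))) :
    ffa_bce_linearEquiv J ((ffa_tool_phi Λ B m J).baseChange k z) =
      ffa_tool_phi Λ k m (ffa_fibre (IsScalarTower.toAlgHom O B k) J)
        (TensorProduct.AlgebraTensorModule.cancelBaseChange O B k k ↥(Λ m) z) := by
  induction z using TensorProduct.induction_on with
  | zero => simp
  | add x y hx hy => simp only [map_add, hx, hy]
  | tmul c v =>
    rw [LinearMap.baseChange_tmul, ffa_tool_phi_apply, ffa_bce_linearEquiv_tmul,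
      ffa_tool_cancel_tmul, map_smul, ffa_tool_phi_apply, ffa_incl_bcΛ]

theorem ffa_tool_rank_eq :
    finrank k (LinearMap.range ((ffa_tool_phi Λ B m J).baseChange k)) =
      finrank k (LinearMap.range
        (ffa_tool_phi Λ k m (ffa_fibre (IsScalarTower.toAlgHom O B k) J))) := by
  set eP := TensorProduct.AlgebraTensorModule.cancelBaseChange O B k k ↥(Λ m) with heP
  have h1 : LinearMap.range (ffa_tool_phi Λ k m (ffa_fibre (IsScalarTower.toAlgHom O B k) J)) =
      (LinearMap.range ((ffa_tool_phi Λ B m J).baseChange k)).map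
        (ffa_bce_linearEquiv J).toLinearMap := by
    ext y
    constructor
    · rintro ⟨u, rfl⟩
      refine ⟨_, ⟨eP.symm u, rfl⟩, ?_⟩
      rw [LinearEquiv.coe_coe, ffa_tool_square, LinearEquiv.apply_symm_apply]
    · rintro ⟨_, ⟨z, rfl⟩, rfl⟩
      rw [LinearEquiv.coe_coe, ffa_tool_square]
      exact ⟨_, rfl⟩
  rw [h1]
  exact (LinearEquiv.finrank_map_eq (ffa_bce_linearEquiv J) _).symm

/-- the fibre rank in terms of the lattice of the fibre -/
theorem ffa_tool_rank_add [Module.Finite k (k ⊗[O] ↥(Λ m))] :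
    finrank k (LinearMap.range ((ffa_tool_phi Λ B m J).baseChange k)) +
      finrank k ↥(ffa_L k Λ m (ffa_fibre (IsScalarTower.toAlgHom O B k) J)) =
      finrank k (k ⊗[O] ↥(Λ m)) := by
  rw [ffa_tool_rank_eq, ← ffa_tool_ker_phi]
  exact LinearMap.finrank_range_add_finrank_ker _

/-- if `φ` has a generalised inverse, the lattice of the fibre is spanned by the image of the
lattice over `B`. -/
theorem ffa_tool_ker_span (ψ : (B ⊗[O] 𝒜) ⧸ J →ₗ[B] B ⊗[O] ↥(Λ m))
    (hψ : ffa_tool_phi Λ B m J ∘ₗ ψ ∘ₗ ffa_tool_phi Λ B m J = ffa_tool_phi Λ B m J) :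
    (ffa_L k Λ m (ffa_fibre (IsScalarTower.toAlgHom O B k) J) : Set (k ⊗[O] ↥(Λ m))) ⊆
      Submodule.span k (ffa_bcΛ Λ (IsScalarTower.toAlgHom O B k) m ''
        (ffa_L B Λ m J : Set (B ⊗[O] ↥(Λ m)))) := by
  set eP := TensorProduct.AlgebraTensorModule.cancelBaseChange O B k k ↥(Λ m) with heP
  intro u hu
  have hu0 : ffa_tool_phi Λ k m (ffa_fibre (IsScalarTower.toAlgHom O B k) J) u = 0 := by
    rw [← LinearMap.mem_ker, ffa_tool_ker_phi]
    exact hu
  have hz : eP.symm u ∈ LinearMap.ker ((ffa_tool_phi Λ B m J).baseChange k) := by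
    rw [LinearMap.mem_ker]
    apply (ffa_bce_linearEquiv J).injective
    rw [ffa_tool_square, LinearEquiv.apply_symm_apply, hu0, map_zero]
  rw [ffr_ker_baseChange hψ k] at hz
  obtain ⟨y, hy⟩ := hz
  have key : ∀ y : k ⊗[B] ↥(LinearMap.ker (ffa_tool_phi Λ B m J)),
      eP ((LinearMap.ker (ffa_tool_phi Λ B m J)).subtype.baseChange k y) ∈
        Submodule.span k (ffa_bcΛ Λ (IsScalarTower.toAlgHom O B k) m ''
          (ffa_L B Λ m J : Set (B ⊗[O] ↥(Λ m)))) := by
    intro y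
    induction y using TensorProduct.induction_on with
    | zero => simp
    | add x y hx hy =>
      rw [map_add, map_add]
      exact Submodule.add_mem _ hx hy
    | tmul c v =>
      rw [LinearMap.baseChange_tmul, Submodule.subtype_apply, ffa_tool_cancel_tmul]
      refine Submodule.smul_mem _ _ (Submodule.subset_span ⟨v.1, ?_, rfl⟩)
      have h2 : (v : B ⊗[O] ↥(Λ m)) ∈ LinearMap.ker (ffa_tool_phi Λ B m J) := v.2
      have h3 := ffa_tool_ker_phi Λ B m J
      exact h3 ▸ h2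
  have := key y
  rw [hy, LinearEquiv.apply_symm_apply] at this
  exact this

end PointTower

section NiceTool

variable {O : Type} [CommRing O] {𝒜 : Type} [CommRing 𝒜] [Algebra O 𝒜]
  {Kb : Type} [Field Kb] [Algebra O Kb]
  {κ : Type} [Field κ] [Algebra O κ]
  {B : Type} [CommRing B] [Algebra O B] {Ξ : Type}
  {ξK : Ξ → B →ₐ[O] Kb} {ξκ : Ξ → B →ₐ[O] κ}
  (nice : ffa_IsNice O Kb κ B Ξ ξK ξκ)
  (Λ : ℕ → Submodule O 𝒜)

/-- the fibre of the quotient at a point: dimension -/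
theorem ffa_tool_finrank_fibre {k : Type} [Field k] [Algebra O k] (ξ : B →ₐ[O] k)
    (J : Ideal (B ⊗[O] 𝒜)) :
    letI := ξ.toRingHom.toAlgebra
    finrank k (k ⊗[B] ((B ⊗[O] 𝒜) ⧸ J)) = finrank k ((k ⊗[O] 𝒜) ⧸ ffa_fibre ξ J) := by
  letI := ξ.toRingHom.toAlgebra
  haveI : IsScalarTower O B k := ffa_tool_tower ξ
  have hξ : IsScalarTower.toAlgHom O B k = ξ := AlgHom.ext fun _ => rfl
  have h := (ffa_bce_linearEquiv (O := O) (𝒜 := 𝒜) (B := B) (B' := k) J).finrank_eq
  rw [hξ] at h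
  exact h

/-- the fibre rank of `ffa_tool_phi` at a point -/
theorem ffa_tool_rank_point {k : Type} [Field k] [Algebra O k] (ξ : B →ₐ[O] k)
    (J : Ideal (B ⊗[O] 𝒜)) (m : ℕ) [Module.Finite k (k ⊗[O] ↥(Λ m))] :
    letI := ξ.toRingHom.toAlgebra
    finrank k (LinearMap.range ((ffa_tool_phi Λ B m J).baseChange k)) +
      finrank k ↥(ffa_L k Λ m (ffa_fibre ξ J)) = finrank k (k ⊗[O] ↥(Λ m)) := by
  letI := ξ.toRingHom.toAlgebra
  haveI : IsScalarTower O B k := ffa_tool_tower ξ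
  have hξ : IsScalarTower.toAlgHom O B k = ξ := AlgHom.ext fun _ => rfl
  have h := ffa_tool_rank_add (k := k) Λ J m
  rw [hξ] at h
  exact h

/-- base change of the kernel of `ffa_tool_phi` at a point -/
theorem ffa_tool_span_point {k : Type} [Field k] [Algebra O k] (ξ : B →ₐ[O] k)
    (J : Ideal (B ⊗[O] 𝒜)) (m : ℕ) (ψ : (B ⊗[O] 𝒜) ⧸ J →ₗ[B] B ⊗[O] ↥(Λ m))
    (hψ : ffa_tool_phi Λ B m J ∘ₗ ψ ∘ₗ ffa_tool_phi Λ B m J = ffa_tool_phi Λ B m J) :
    (ffa_L k Λ m (ffa_fibre ξ J) : Set (k ⊗[O] ↥(Λ m))) ⊆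
      Submodule.span k (ffa_bcΛ Λ ξ m '' (ffa_L B Λ m J : Set (B ⊗[O] ↥(Λ m)))) := by
  letI := ξ.toRingHom.toAlgebra
  haveI : IsScalarTower O B k := ffa_tool_tower ξ
  have hξ : IsScalarTower.toAlgHom O B k = ξ := AlgHom.ext fun _ => rfl
  have h := ffa_tool_ker_span (k := k) Λ J m ψ hψ
  rw [hξ] at h
  exact h

include nice

/-- **(FREE)** an ideal with `B`-finite quotient whose fibres at all points have colength `d` is a
relative divisor of degree `d`. -/
theorem ffa_tool_free [Nontrivial B] (J : Ideal (B ⊗[O] 𝒜)) (d : ℕ)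
    (hfin : Module.Finite B ((B ⊗[O] 𝒜) ⧸ J))
    (hK : ∀ t, finrank Kb ((Kb ⊗[O] 𝒜) ⧸ ffa_fibre (ξK t) J) = d)
    (hκ : ∀ t, finrank κ ((κ ⊗[O] 𝒜) ⧸ ffa_fibre (ξκ t) J) = d) :
    ffa_IsRelDiv O 𝒜 B J d := by
  obtain ⟨b⟩ := ffa_nice_exists_basis nice (M := (B ⊗[O] 𝒜) ⧸ J) d
    (fun t => by rw [ffa_tool_finrank_fibre (ξK t) J]; exact hK t)
    (fun t => by rw [ffa_tool_finrank_fibre (ξκ t) J]; exact hκ t)
  exact ⟨hfin, Module.Free.of_basis b, by rw [finrank_eq_card_basis b, Fintype.card_fin]⟩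

/-- **(KER)** if the lattices of the fibres of a relative divisor `J` at all points have dimension
`e`, the lattice `ffa_L B Λ m J` is free of rank `e` and spans the lattice of every fibre. -/
theorem ffa_tool_ker [Nontrivial O] [Nontrivial B] (m : ℕ) [Module.Finite O ↥(Λ m)] [Module.Free O ↥(Λ m)]
    (J : Ideal (B ⊗[O] 𝒜)) (d e : ℕ) (hJ : ffa_IsRelDiv O 𝒜 B J d)
    (hK : ∀ t, finrank Kb ↥(ffa_L Kb Λ m (ffa_fibre (ξK t) J)) = e)
    (hκ : ∀ t, finrank κ ↥(ffa_L κ Λ m (ffa_fibre (ξκ t) J)) = e) :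
    Nonempty (Basis (Fin e) B ↥(ffa_L B Λ m J)) ∧
    (∀ t, (ffa_L Kb Λ m (ffa_fibre (ξK t) J) : Set (Kb ⊗[O] ↥(Λ m))) ⊆
      Submodule.span Kb (ffa_bcΛ Λ (ξK t) m '' (ffa_L B Λ m J : Set (B ⊗[O] ↥(Λ m))))) ∧
    (∀ t, (ffa_L κ Λ m (ffa_fibre (ξκ t) J) : Set (κ ⊗[O] ↥(Λ m))) ⊆
      Submodule.span κ (ffa_bcΛ Λ (ξκ t) m '' (ffa_L B Λ m J : Set (B ⊗[O] ↥(Λ m))))) := by
  obtain ⟨hJfin, hJfree, -⟩ := hJ
  haveI := hJfin
  haveI := hJfree
  set ρ := finrank O ↥(Λ m) with hρ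
  have hρK : finrank Kb (Kb ⊗[O] ↥(Λ m)) = ρ := Module.finrank_baseChange
  have hρκ : finrank κ (κ ⊗[O] ↥(Λ m)) = ρ := Module.finrank_baseChange
  have hρB : finrank B (B ⊗[O] ↥(Λ m)) = ρ := Module.finrank_baseChange
  have hrK : ∀ t, letI := (ξK t).toRingHom.toAlgebra;
      finrank Kb (LinearMap.range ((ffa_tool_phi Λ B m J).baseChange Kb)) = ρ - e := by
    intro t
    have h1 := ffa_tool_rank_point Λ (ξK t) J m
    have h2 := hK t
    omega
  have hrκ : ∀ t, letI := (ξκ t).toRingHom.toAlgebra;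
      finrank κ (LinearMap.range ((ffa_tool_phi Λ B m J).baseChange κ)) = ρ - e := by
    intro t
    have h1 := ffa_tool_rank_point Λ (ξκ t) J m
    have h2 := hκ t
    omega
  have hle : e ≤ ρ := by
    obtain ⟨t⟩ := ffa_nice_nonempty nice
    have h1 := ffa_tool_rank_point Λ (ξK t) J m
    have h2 := hK t
    omega
  obtain ⟨-, -, ⟨bK⟩, ψ, hψ⟩ := ffa_nice_map nice (ffa_tool_phi Λ B m J) (ρ - e) hrK hrκ
  refine ⟨?_, fun t => ffa_tool_span_point Λ (ξK t) J m ψ hψ,
    fun t => ffa_tool_span_point Λ (ξκ t) J m ψ hψ⟩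
  have hidx : finrank B (B ⊗[O] ↥(Λ m)) - (ρ - e) = e := by omega
  exact ⟨(bK.reindex (finCongr hidx)).map (LinearEquiv.ofEq _ _ (ffa_tool_ker_phi Λ B m J))⟩

end NiceTool

/-- **[TOOL]** the criteria over a nice base, in instance-free form. -/
theorem ffa_res_tool (hFIB : ffa_res_SeamFIB) : ffa_res_SeamTOOL := by
  intro O _ _ _ 𝒜 _ _ C _ _ π Kb _ _ _ κ _ _ _ Λ lead g n m0 c0 pkg B _ _ _ Ξ ξK ξκ nice
  obtain ⟨-, -, -, hΛ, -⟩ := hFIB O 𝒜 C π Kb κ Λ lead g n m0 c0 pkg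
  refine ⟨fun J d hfin hK hκ => ffa_tool_free nice J d hfin hK hκ, ?_, ?_⟩
  · intro J d m e hJ hK hκ
    haveI := (hΛ m).1
    haveI := (hΛ m).2
    exact ffa_tool_ker nice Λ m J d e hJ hK hκ
  · intro c hc
    haveI := pkg.Cfin
    exact ffa_tool_unit nice c hc

end Fermat.Agent.FF
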