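/-
Project FF (S19), cell [ADD], sub-cell [A-RES], leaf [COLON] (`ffa_res_SeamCOLON`), the `B`-level
half (helper9; the fibre half is helper26's Res/ColonFib.lean).  Prefix `ffa_res_colon_`.
Imports Mathlib + FF/Add/Res/{Seams, Nice, Tool, ColonFib} + FF/Add/BCEquiv.

`J' := (F) : J` is the kernel of `𝒜_B → Q → Q^r`, `x ↦ ([x] · [a i])_i`, `Q := 𝒜_B/(F)` finite free of
rank `m n` ([PRIN]), `a i` generators of `J`.  The fibre of `φ : Q → Q^r` at a point `ξ` is the same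
map for `(k ⊗ 𝒜)/(F_ξ)` and the generators `a i_ξ` of `J_ξ` (`ffa_res_colon_mu_apply`), of rank
`m n - d` by [COLON-FIB]; hence (`ffa_nice_map`) `range φ ≅ 𝒜_B/J'` is free of rank `m n - d`.  The
fibre `J'_ξ` is contained in `(F_ξ) : J_ξ` and has the same colength, so they are equal
(`ffd_q_eq_of_finrank_eq`), and `((F_ξ) : J_ξ) · J_ξ = (F_ξ)` in the Dedekind domain `k ⊗ 𝒜`.
-/
import Mathlib
import Fermat.Agent.FF.Add.Res.Seams
import Fermat.Agent.FF.Add.Res.Nice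
import Fermat.Agent.FF.Add.Res.Tool
import Fermat.Agent.FF.Add.Res.ColonFib
import Fermat.Agent.FF.Add.BCEquiv
import Fermat.Agent.FF.Dict.Quot

set_option autoImplicit false
set_option linter.style.haveILetI false
set_option linter.unusedSectionVars false

noncomputable section

namespace Fermat.Agent.FF

open scoped TensorProduct
open Module

section Tower

variable {O : Type} [CommRing O] {𝒜 : Type} [CommRing 𝒜] [Algebra O 𝒜]
  {B : Type} [CommRing B] [Algebra O B]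

/-- `φ : Q → Q^r`, `q ↦ (q · a i)_i`, `Q = (B ⊗ 𝒜)/(F)`; its kernel is `((F) : J)/(F)` when the
`a i` generate `J`. -/
def ffa_res_colon_phi (F : B ⊗[O] 𝒜) {r : ℕ} (a : Fin r → B ⊗[O] 𝒜) :
    ((B ⊗[O] 𝒜) ⧸ Ideal.span {F}) →ₗ[B] (Fin r → (B ⊗[O] 𝒜) ⧸ Ideal.span {F}) :=
  LinearMap.pi fun i => LinearMap.mulRight B (Ideal.Quotient.mk (Ideal.span {F}) (a i))

@[simp] theorem ffa_res_colon_phi_apply (F : B ⊗[O] 𝒜) {r : ℕ} (a : Fin r → B ⊗[O] 𝒜)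
    (q : (B ⊗[O] 𝒜) ⧸ Ideal.span {F}) (i : Fin r) :
    ffa_res_colon_phi F a q i = q * Ideal.Quotient.mk (Ideal.span {F}) (a i) := rfl

variable {k : Type} [Field k] [Algebra O k] [Algebra B k] [IsScalarTower O B k]

/-- the fibre of `φ` at a point, transported to `(k ⊗ 𝒜)/(F)_ξ` -/
def ffa_res_colon_mu (F : B ⊗[O] 𝒜) {r : ℕ} (a : Fin r → B ⊗[O] 𝒜) :
    ((k ⊗[O] 𝒜) ⧸ ffa_fibre (IsScalarTower.toAlgHom O B k) (Ideal.span {F})) →ₗ[k]
      (Fin r → (k ⊗[O] 𝒜) ⧸ ffa_fibre (IsScalarTower.toAlgHom O B k) (Ideal.span {F})) :=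
  (LinearEquiv.piCongrRight fun _ : Fin r =>
      ffa_bce_linearEquiv (B' := k) (Ideal.span {F})).toLinearMap ∘ₗ
    (TensorProduct.piRight B k k fun _ : Fin r => (B ⊗[O] 𝒜) ⧸ Ideal.span {F}).toLinearMap ∘ₗ
    (ffa_res_colon_phi F a).baseChange k ∘ₗ
    (ffa_bce_linearEquiv (B' := k) (Ideal.span {F})).symm.toLinearMap

theorem ffa_res_colon_mu_apply (F : B ⊗[O] 𝒜) {r : ℕ} (a : Fin r → B ⊗[O] 𝒜)
    (q : (k ⊗[O] 𝒜) ⧸ ffa_fibre (IsScalarTower.toAlgHom O B k) (Ideal.span {F})) (i : Fin r) :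
    ffa_res_colon_mu (k := k) F a q i =
      q * Ideal.Quotient.mk _ (ffa_bc 𝒜 (IsScalarTower.toAlgHom O B k) (a i)) := by
  obtain ⟨z, rfl⟩ := (ffa_bce_linearEquiv (B' := k) (Ideal.span {F})).surjective q
  simp only [ffa_res_colon_mu, LinearMap.comp_apply, LinearEquiv.coe_coe,
    LinearEquiv.symm_apply_apply, LinearEquiv.piCongrRight_apply, TensorProduct.piRight_apply]
  induction z using TensorProduct.induction_on with
  | zero => simp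
  | add x y hx hy =>
    simp only [map_add, Pi.add_apply, add_mul] at hx hy ⊢
    rw [hx, hy]
  | tmul c w =>
    obtain ⟨x, rfl⟩ := Ideal.Quotient.mk_surjective w
    rw [LinearMap.baseChange_tmul, TensorProduct.piRightHom_tmul]
    beta_reduce
    rw [ffa_res_colon_phi_apply, ← map_mul, ffa_bce_linearEquiv_tmul, ffa_bce_linearEquiv_tmul, map_mul, map_mul,
      smul_mul_assoc]

theorem ffa_res_colon_rank_mu (F : B ⊗[O] 𝒜) {r : ℕ} (a : Fin r → B ⊗[O] 𝒜) :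
    finrank k (LinearMap.range ((ffa_res_colon_phi F a).baseChange k)) =
      finrank k (LinearMap.range (ffa_res_colon_mu (k := k) F a)) := by
  set e1 := ffa_bce_linearEquiv (B' := k) (Ideal.span {F}) with he1
  set e2 := (TensorProduct.piRight B k k fun _ : Fin r => (B ⊗[O] 𝒜) ⧸ Ideal.span {F}).trans
    (LinearEquiv.piCongrRight fun _ : Fin r => e1) with he2
  have h1 : LinearMap.range (ffa_res_colon_mu (k := k) F a) =
      (LinearMap.range ((ffa_res_colon_phi F a).baseChange k)).map e2.toLinearMap := by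
    ext y
    constructor
    · rintro ⟨q, rfl⟩
      exact ⟨_, ⟨e1.symm q, rfl⟩, rfl⟩
    · rintro ⟨_, ⟨z, rfl⟩, rfl⟩
      refine ⟨e1 z, ?_⟩
      simp only [ffa_res_colon_mu, LinearMap.comp_apply, LinearEquiv.coe_coe, he2,
        LinearEquiv.trans_apply]
      rw [LinearEquiv.symm_apply_apply]
  rw [h1]
  exact (LinearEquiv.finrank_map_eq e2 _).symm

/-- the rank of the fibre of `φ` at a point (tower form): `rank φ_ξ + dim A/J_ξ = dim A/(F)_ξ`. -/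
theorem ffa_res_colon_rank_tower (hded : IsDedekindDomain (k ⊗[O] 𝒜))
    (hres : ∀ P : Ideal (k ⊗[O] 𝒜), P.IsMaximal → P ≠ ⊥ →
      Function.Surjective (algebraMap k ((k ⊗[O] 𝒜) ⧸ P)))
    (F : B ⊗[O] 𝒜) (J : Ideal (B ⊗[O] 𝒜)) (hFJ : F ∈ J)
    (hFξ : ffa_bc 𝒜 (IsScalarTower.toAlgHom O B k) F ≠ 0)
    {r : ℕ} (a : Fin r → B ⊗[O] 𝒜) (ha : Ideal.span (Set.range a) = J) :
    finrank k (LinearMap.range ((ffa_res_colon_phi F a).baseChange k)) +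
        finrank k ((k ⊗[O] 𝒜) ⧸ ffa_fibre (IsScalarTower.toAlgHom O B k) J) =
      finrank k ((k ⊗[O] 𝒜) ⧸ ffa_fibre (IsScalarTower.toAlgHom O B k) (Ideal.span {F})) := by
  rw [ffa_res_colon_rank_mu]
  set ξ₀ := IsScalarTower.toAlgHom O B k with hξ₀
  have h𝔣 : ffa_fibre ξ₀ (Ideal.span {F}) = Ideal.span {ffa_bc 𝒜 ξ₀ F} := by
    rw [ffa_fibre, Ideal.map_span, Set.image_singleton]
  have h𝔟 : Ideal.span (Set.range fun i => ffa_bc 𝒜 ξ₀ (a i)) = ffa_fibre ξ₀ J := by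
    rw [← ha, ffa_fibre, Ideal.map_span, ← Set.range_comp]
    rfl
  have hmem : ffa_bc 𝒜 ξ₀ F ∈ ffa_fibre ξ₀ J := Ideal.mem_map_of_mem _ hFJ
  have key : ∀ (𝔣 : Ideal (k ⊗[O] 𝒜)) (_ : 𝔣 = Ideal.span {ffa_bc 𝒜 ξ₀ F})
      (μ : ((k ⊗[O] 𝒜) ⧸ 𝔣) →ₗ[k] (Fin r → (k ⊗[O] 𝒜) ⧸ 𝔣))
      (_ : ∀ q i, μ q i = q * Ideal.Quotient.mk 𝔣 (ffa_bc 𝒜 ξ₀ (a i))),
      finrank k (LinearMap.range μ) + finrank k ((k ⊗[O] 𝒜) ⧸ ffa_fibre ξ₀ J) =
        finrank k ((k ⊗[O] 𝒜) ⧸ 𝔣) := by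
    intro 𝔣 h𝔣' μ hμ
    subst h𝔣'
    exact ffa_res_cfib_finrank_range_add hres hFξ hmem (fun i => ffa_bc 𝒜 ξ₀ (a i)) h𝔟 μ hμ
  exact key _ h𝔣 _ (ffa_res_colon_mu_apply F a)

end Tower

section Point

variable {O : Type} [CommRing O] {𝒜 : Type} [CommRing 𝒜] [Algebra O 𝒜]
  {B : Type} [CommRing B] [Algebra O B] {k : Type} [Field k] [Algebra O k]

/-- the rank of the fibre of `φ` at a bare point `ξ : B →ₐ[O] k`. -/
theorem ffa_res_colon_rank_point (ξ : B →ₐ[O] k) (hded : IsDedekindDomain (k ⊗[O] 𝒜))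
    (hres : ∀ P : Ideal (k ⊗[O] 𝒜), P.IsMaximal → P ≠ ⊥ →
      Function.Surjective (algebraMap k ((k ⊗[O] 𝒜) ⧸ P)))
    (F : B ⊗[O] 𝒜) (J : Ideal (B ⊗[O] 𝒜)) (hFJ : F ∈ J) (hFξ : ffa_bc 𝒜 ξ F ≠ 0)
    {r : ℕ} (a : Fin r → B ⊗[O] 𝒜) (ha : Ideal.span (Set.range a) = J) :
    letI := ξ.toRingHom.toAlgebra
    finrank k (LinearMap.range ((ffa_res_colon_phi F a).baseChange k)) +
        finrank k ((k ⊗[O] 𝒜) ⧸ ffa_fibre ξ J) =
      finrank k ((k ⊗[O] 𝒜) ⧸ ffa_fibre ξ (Ideal.span {F})) := by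
  letI := ξ.toRingHom.toAlgebra
  haveI : IsScalarTower O B k := ffa_tool_tower ξ
  have hξ : IsScalarTower.toAlgHom O B k = ξ := AlgHom.ext fun _ => rfl
  have h := ffa_res_colon_rank_tower (k := k) hded hres F J hFJ (by rw [hξ]; exact hFξ) a ha
  rw [hξ] at h
  exact h

/-- the fibre of the colon ideal is contained in the colon ideal of the fibres. -/
theorem ffa_res_colon_fibre_le (ξ : B →ₐ[O] k) (F : B ⊗[O] 𝒜) (J : Ideal (B ⊗[O] 𝒜)) :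
    ffa_fibre ξ ((Ideal.span {F}).colon (J : Set (B ⊗[O] 𝒜))) ≤
      (Ideal.span {ffa_bc 𝒜 ξ F}).colon ((ffa_fibre ξ J : Ideal (k ⊗[O] 𝒜)) : Set (k ⊗[O] 𝒜)) := by
  rw [ffa_fibre, Ideal.map_le_iff_le_comap]
  intro x hx
  rw [Ideal.mem_comap, Submodule.mem_colon]
  intro y hy
  rw [smul_eq_mul]
  have hy' : y ∈ Ideal.span (ffa_bc 𝒜 ξ '' (J : Set (B ⊗[O] 𝒜))) := hy
  refine Submodule.span_induction
    (p := fun y _ => ffa_bc 𝒜 ξ x * y ∈ Ideal.span {ffa_bc 𝒜 ξ F}) ?_ ?_ ?_ ?_ hy'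
  · rintro _ ⟨y', hy', rfl⟩
    have h1 : x * y' ∈ Ideal.span {F} := by
      have := (Submodule.mem_colon.mp hx) y' hy'
      rwa [smul_eq_mul] at this
    rw [← map_mul]
    obtain ⟨c, hc⟩ := Ideal.mem_span_singleton'.mp h1
    rw [← hc, map_mul]
    exact Ideal.mul_mem_left _ _ (Ideal.mem_span_singleton_self _)
  · rw [mul_zero]; exact Ideal.zero_mem _
  · intro y z _ _ hy hz
    rw [mul_add]; exact Ideal.add_mem _ hy hz
  · intro c y _ hy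
    rw [smul_eq_mul, mul_left_comm]
    exact Ideal.mul_mem_left _ c hy

end Point

section Main

variable {O : Type} [CommRing O] {𝒜 : Type} [CommRing 𝒜] [Algebra O 𝒜]
  {B : Type} [CommRing B] [Algebra O B]

/-- `x ↦ ([x] · [a i])_i` has kernel `(F) : J`. -/
theorem ffa_res_colon_ker_iff (F : B ⊗[O] 𝒜) (J : Ideal (B ⊗[O] 𝒜)) {r : ℕ}
    (a : Fin r → B ⊗[O] 𝒜) (ha : Ideal.span (Set.range a) = J) (x : B ⊗[O] 𝒜) :
    ffa_res_colon_phi F a (Ideal.Quotient.mk (Ideal.span {F}) x) = 0 ↔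
      x ∈ (Ideal.span {F}).colon (J : Set (B ⊗[O] 𝒜)) := by
  rw [Submodule.mem_colon]
  constructor
  · intro h0 y hy
    rw [smul_eq_mul]
    have hgen : ∀ i, x * a i ∈ Ideal.span {F} := by
      intro i
      have h1 := congrFun h0 i
      rw [ffa_res_colon_phi_apply, Pi.zero_apply, ← map_mul, Ideal.Quotient.eq_zero_iff_mem] at h1
      exact h1
    rw [← ha] at hy
    refine Submodule.span_induction (p := fun y _ => x * y ∈ Ideal.span {F}) ?_ ?_ ?_ ?_ hy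
    · rintro _ ⟨i, rfl⟩
      exact hgen i
    · rw [mul_zero]; exact Ideal.zero_mem _
    · intro y z _ _ hy hz
      rw [mul_add]; exact Ideal.add_mem _ hy hz
    · intro c y _ hy
      rw [smul_eq_mul, mul_left_comm]
      exact Ideal.mul_mem_left _ c hy
  · intro hx
    funext i
    rw [ffa_res_colon_phi_apply, Pi.zero_apply, ← map_mul, Ideal.Quotient.eq_zero_iff_mem]
    have hai : a i ∈ J := by
      rw [← ha]
      exact Ideal.subset_span ⟨i, rfl⟩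
    have := hx (a i) hai
    rwa [smul_eq_mul] at this

/-- `𝒜_B / ((F) : J) ≃ range φ` -/
theorem ffa_res_colon_quot_equiv (F : B ⊗[O] 𝒜) (J : Ideal (B ⊗[O] 𝒜)) {r : ℕ}
    (a : Fin r → B ⊗[O] 𝒜) (ha : Ideal.span (Set.range a) = J) :
    Nonempty (((B ⊗[O] 𝒜) ⧸ (Ideal.span {F}).colon (J : Set (B ⊗[O] 𝒜))) ≃ₗ[B]
      ↥(LinearMap.range (ffa_res_colon_phi F a))) := by
  let mkF : (B ⊗[O] 𝒜) →ₗ[B] ((B ⊗[O] 𝒜) ⧸ Ideal.span {F}) :=
    (Ideal.Quotient.mkₐ B (Ideal.span {F})).toLinearMap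
  have hmkF : Function.Surjective mkF := Ideal.Quotient.mk_surjective
  let ν : (B ⊗[O] 𝒜) →ₗ[B] (Fin r → (B ⊗[O] 𝒜) ⧸ Ideal.span {F}) :=
    (ffa_res_colon_phi F a).comp mkF
  have hrange : LinearMap.range ν = LinearMap.range (ffa_res_colon_phi F a) :=
    LinearMap.range_comp_of_range_eq_top _ (LinearMap.range_eq_top.mpr hmkF)
  have hker : LinearMap.ker ν =
      ((Ideal.span {F}).colon (J : Set (B ⊗[O] 𝒜))).restrictScalars B := by
    ext x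
    rw [LinearMap.mem_ker, Submodule.restrictScalars_mem]
    exact ffa_res_colon_ker_iff F J a ha x
  have e1 : ((B ⊗[O] 𝒜) ⧸ LinearMap.ker ν) ≃ₗ[B] ↥(LinearMap.range ν) := ν.quotKerEquivRange
  have e2 : ((B ⊗[O] 𝒜) ⧸ LinearMap.ker ν) ≃ₗ[B]
      ((B ⊗[O] 𝒜) ⧸ ((Ideal.span {F}).colon (J : Set (B ⊗[O] 𝒜))).restrictScalars B) :=
    Submodule.quotEquivOfEq _ _ hker
  have e3 : ((B ⊗[O] 𝒜) ⧸ ((Ideal.span {F}).colon (J : Set (B ⊗[O] 𝒜))).restrictScalars B) ≃ₗ[B]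
      ((B ⊗[O] 𝒜) ⧸ (Ideal.span {F}).colon (J : Set (B ⊗[O] 𝒜))) :=
    Submodule.Quotient.restrictScalarsEquiv B _
  have e4 : ↥(LinearMap.range ν) ≃ₗ[B] ↥(LinearMap.range (ffa_res_colon_phi F a)) :=
    LinearEquiv.ofEq _ _ hrange
  exact ⟨(e3.symm.trans e2.symm).trans (e1.trans e4)⟩

end Main

/-- **[COLON]** -/
theorem ffa_res_colon (hFIB : ffa_res_SeamFIB) (hB3 : ffa_res_SeamB3) (hPRIN : ffa_res_SeamPRIN)
    (hBC : ffa_SeamBC) : ffa_res_SeamCOLON := by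
  intro O _ _ _ 𝒜 _ _ C _ _ π Kb _ _ _ κ _ _ _ Λ lead g n m0 c0 pkg B _ _ _ Ξ ξK ξκ nice m f hf J d
    hJ hfJ
  obtain ⟨fibK, fibκ, hn, -, -⟩ := hFIB O 𝒜 C π Kb κ Λ lead g n m0 c0 pkg
  set F : B ⊗[O] 𝒜 := ffa_incl B Λ m f with hF
  have hQ := hPRIN O 𝒜 C π Kb κ Λ lead g n m0 c0 pkg B Ξ ξK ξκ nice m f hf
  haveI : Module.Finite B ((B ⊗[O] 𝒜) ⧸ Ideal.span {F}) := hQ.1
  haveI : Module.Free B ((B ⊗[O] 𝒜) ⧸ Ideal.span {F}) := hQ.2.1
  -- generators of `J`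
  haveI : Algebra.FiniteType O 𝒜 := pkg.ft
  haveI : Module.Finite O B := nice.fin
  haveI : IsNoetherianRing B := IsNoetherianRing.of_finite O B
  haveI : IsNoetherianRing (B ⊗[O] 𝒜) := Algebra.FiniteType.isNoetherianRing B (B ⊗[O] 𝒜)
  obtain ⟨r, a, ha⟩ := Submodule.fg_iff_exists_fin_generating_family.mp (IsNoetherian.noetherian J)
  set J' : Ideal (B ⊗[O] 𝒜) := (Ideal.span {F}).colon (J : Set (B ⊗[O] 𝒜)) with hJ'
  have hFJ' : F ∈ J' := by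
    rw [hJ', Submodule.mem_colon]
    intro y _
    rw [smul_eq_mul]
    exact Ideal.mul_mem_right _ _ (Ideal.mem_span_singleton_self _)
  -- the facts at a point
  have hpt : ∀ {k : Type} [Field k] [Algebra O k] (_ : ffa_IsFib Λ lead g n m0 k) (ξ : B →ₐ[O] k),
      ffa_bc 𝒜 ξ F = ffa_incl k Λ m (ffa_bcΛ Λ ξ m f) ∧ ffa_bc 𝒜 ξ F ≠ 0 ∧
      ffa_fibre ξ (Ideal.span {F}) = Ideal.span {ffa_bc 𝒜 ξ F} ∧
      finrank k ((k ⊗[O] 𝒜) ⧸ ffa_fibre ξ (Ideal.span {F})) = m * n ∧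
      finrank k ((k ⊗[O] 𝒜) ⧸ ffa_fibre ξ J) = d := by
    intro k _ _ hk ξ
    have h1 : ffa_bc 𝒜 ξ F = ffa_incl k Λ m (ffa_bcΛ Λ ξ m f) := (ffa_incl_bcΛ ξ m f).symm
    obtain ⟨h2, -, h3⟩ := hB3 O 𝒜 C π Kb κ Λ lead g n m0 c0 pkg k hk m (ffa_bcΛ Λ ξ m f)
      (hf.bc lead ξ)
    have h4 : ffa_fibre ξ (Ideal.span {F}) = Ideal.span {ffa_bc 𝒜 ξ F} := by
      rw [ffa_fibre, Ideal.map_span, Set.image_singleton]
    refine ⟨h1, by rw [h1]; exact h2, h4, by rw [h4, h1]; exact h3, ?_⟩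
    exact (hBC O 𝒜 B k k ξ (AlgHom.id O k) J d hJ).1.2.2
  -- the ranks at the points
  have hrank : ∀ {k : Type} [Field k] [Algebra O k] (_ : ffa_IsFib Λ lead g n m0 k)
      (ξ : B →ₐ[O] k), letI := ξ.toRingHom.toAlgebra;
      finrank k (LinearMap.range ((ffa_res_colon_phi F a).baseChange k)) + d = m * n := by
    intro k _ _ hk ξ
    obtain ⟨-, h2, -, h4, h5⟩ := hpt hk ξ
    have h := ffa_res_colon_rank_point ξ hk.ded hk.res F J hfJ h2 a ha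
    rw [h4, h5] at h
    exact h
  obtain ⟨t₀⟩ := ffa_nice_nonempty nice
  have hle : d ≤ m * n := by
    have := hrank fibK (ξK t₀)
    omega
  have hQrank : finrank B ((B ⊗[O] 𝒜) ⧸ Ideal.span {F}) = m * n := hQ.2.2
  obtain ⟨-, ⟨bR⟩, -, -⟩ := ffa_nice_map nice (ffa_res_colon_phi F a) (m * n - d)
    (fun t => by have := hrank fibK (ξK t); omega) (fun t => by have := hrank fibκ (ξκ t); omega)
  obtain ⟨e⟩ := ffa_res_colon_quot_equiv F J a ha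
  have bJ' : Basis (Fin (m * n - d)) B ((B ⊗[O] 𝒜) ⧸ J') := bR.map e.symm
  have hJ'div : ffa_IsRelDiv O 𝒜 B J' (m * n - d) :=
    ⟨Module.Finite.of_basis bJ', Module.Free.of_basis bJ', by
      rw [finrank_eq_card_basis bJ', Fintype.card_fin]⟩
  -- the fibres
  have hfib : ∀ {k : Type} [Field k] [Algebra O k] (_ : ffa_IsFib Λ lead g n m0 k)
      (ξ : B →ₐ[O] k), ffa_fibre ξ J' * ffa_fibre ξ J =
        Ideal.span {ffa_incl k Λ m (ffa_bcΛ Λ ξ m f)} := by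
    intro k _ _ hk ξ
    obtain ⟨h1, h2, h3, h4, h5⟩ := hpt hk ξ
    haveI := hk.ded
    have hmem : ffa_bc 𝒜 ξ F ∈ ffa_fibre ξ J := Ideal.mem_map_of_mem _ hfJ
    have hle' := ffa_res_colon_fibre_le ξ F J
    have hne : ffa_fibre ξ J' ≠ ⊥ := by
      intro h0
      have : ffa_bc 𝒜 ξ F ∈ ffa_fibre ξ J' := Ideal.mem_map_of_mem _ hFJ'
      rw [h0, Ideal.mem_bot] at this
      exact h2 this
    have hc1 : finrank k ((k ⊗[O] 𝒜) ⧸ ffa_fibre ξ J') = m * n - d :=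
      (hBC O 𝒜 B k k ξ (AlgHom.id O k) J' (m * n - d) hJ'div).1.2.2
    have hc2 := ffa_res_cfib_finrank_colon hk.res h2 hmem
    have hc3 : finrank k ((k ⊗[O] 𝒜) ⧸ Ideal.span {ffa_bc 𝒜 ξ F}) = m * n := by
      rw [← h3]
      exact h4
    rw [hc3, h5] at hc2
    have heq : ffa_fibre ξ J' = (Ideal.span {ffa_bc 𝒜 ξ F}).colon
        ((ffa_fibre ξ J : Ideal (k ⊗[O] 𝒜)) : Set (k ⊗[O] 𝒜)) :=
      ffd_q_eq_of_finrank_eq hk.res hne hle' (by omega)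
    rw [heq, ffa_res_cfib_colon_mul h2 hmem, h1]
  exact ⟨hJ'div, hle, fun t => hfib fibK (ξK t), fun t => hfib fibκ (ξκ t)⟩

end Fermat.Agent.FF
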