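/-
Project FF (S19), cell [ADD], sub-cell [A-RES], leaf [LAT]: **the lattice calculus** over a base `R`
(`ffa_res_SeamLAT`).  Owner: helper13.  Prefix `ffa_res_lat_`.  Mathlib + FF/Add/Res/Seams only.

Only the filtration axioms of the package are used: `mono`, `exh`, `mul_mem`, `lead_ker`, `lead_mul`,
`lead_surj`.  Abstract context: `Λ : ℕ → Submodule O 𝒜`, `lead m : Λ m →ₗ[O] C`.

* `ffa_res_lat_mul`  : products;
* `ffa_res_lat_up`   : `R ⊗ Λ a → R ⊗ Λ b` (`a ≤ b`), leading term `0` if `a < b`;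
* `ffa_res_lat_exh`  : the lattices exhaust `R ⊗ 𝒜`;
* `ffa_res_lat_div`  : (DIV) over a good base;
* `ffa_res_lat_gen`  : (B3, generation) over a good base;
* `ffa_res_lat`      : `ffa_res_SeamLAT`.
-/
import Mathlib
import Fermat.Agent.FF.Add.Res.Seams

set_option autoImplicit false
set_option linter.style.haveILetI false
set_option linter.unusedSectionVars false

noncomputable section

namespace Fermat.Agent.FF

open scoped TensorProduct

section Lat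

variable {O : Type} [CommRing O] {𝒜 : Type} [CommRing 𝒜] [Algebra O 𝒜]
  {C : Type} [CommRing C] [Algebra O C]
  {Λ : ℕ → Submodule O 𝒜} {lead : ∀ m, ↥(Λ m) →ₗ[O] C}
  (R : Type) [CommRing R] [Algebra O R]

/-- products of lattice elements -/
theorem ffa_res_lat_mul
    (mul_mem : ∀ (a b : ℕ) (x y : 𝒜), x ∈ Λ a → y ∈ Λ b → x * y ∈ Λ (a + b))
    (lead_mul : ∀ (a b : ℕ) (x : ↥(Λ a)) (y : ↥(Λ b)),
      lead (a + b) ⟨(x : 𝒜) * (y : 𝒜), mul_mem a b x y x.2 y.2⟩ = lead a x * lead b y)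
    (a b : ℕ) (x : R ⊗[O] ↥(Λ a)) (y : R ⊗[O] ↥(Λ b)) :
    ∃ z : R ⊗[O] ↥(Λ (a + b)),
      ffa_incl R Λ (a + b) z = ffa_incl R Λ a x * ffa_incl R Λ b y ∧
      ffa_leadR R Λ lead (a + b) z = ffa_leadR R Λ lead a x * ffa_leadR R Λ lead b y := by
  induction x using TensorProduct.induction_on with
  | zero => exact ⟨0, by simp, by simp⟩
  | tmul r x₀ =>
    induction y using TensorProduct.induction_on with
    | zero => exact ⟨0, by simp, by simp⟩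
    | tmul s y₀ =>
      refine ⟨(r * s) ⊗ₜ[O] ⟨(x₀ : 𝒜) * (y₀ : 𝒜), mul_mem a b x₀ y₀ x₀.2 y₀.2⟩, ?_, ?_⟩
      · simp only [ffa_incl_tmul, Algebra.TensorProduct.tmul_mul_tmul]
      · simp only [ffa_leadR_tmul, Algebra.TensorProduct.tmul_mul_tmul, lead_mul]
    | add y₁ y₂ h₁ h₂ =>
      obtain ⟨z₁, hz₁, hz₁'⟩ := h₁
      obtain ⟨z₂, hz₂, hz₂'⟩ := h₂
      exact ⟨z₁ + z₂, by rw [map_add, map_add, hz₁, hz₂, mul_add],
        by rw [map_add, map_add, hz₁', hz₂', mul_add]⟩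
  | add x₁ x₂ h₁ h₂ =>
    obtain ⟨z₁, hz₁, hz₁'⟩ := h₁
    obtain ⟨z₂, hz₂, hz₂'⟩ := h₂
    exact ⟨z₁ + z₂, by rw [map_add, map_add, hz₁, hz₂, add_mul],
      by rw [map_add, map_add, hz₁', hz₂', add_mul]⟩

/-- transport along an equality of levels -/
theorem ffa_res_lat_cast {a b : ℕ} (h : a = b) (x : R ⊗[O] ↥(Λ a)) :
    ∃ z : R ⊗[O] ↥(Λ b), ffa_incl R Λ b z = ffa_incl R Λ a x ∧
      ffa_leadR R Λ lead b z = ffa_leadR R Λ lead a x := by
  subst h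
  exact ⟨x, rfl, rfl⟩

/-- going up in the filtration -/
theorem ffa_res_lat_up (mono : Monotone Λ)
    (lead_ker : ∀ (m : ℕ) (x : ↥(Λ (m + 1))), lead (m + 1) x = 0 ↔ (x : 𝒜) ∈ Λ m)
    (a b : ℕ) (hab : a ≤ b) (x : R ⊗[O] ↥(Λ a)) :
    ∃ z : R ⊗[O] ↥(Λ b), ffa_incl R Λ b z = ffa_incl R Λ a x ∧
      (a < b → ffa_leadR R Λ lead b z = 0) := by
  refine ⟨(Submodule.inclusion (mono hab)).baseChange R x, ?_, ?_⟩
  · induction x using TensorProduct.induction_on with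
    | zero => simp
    | tmul r x₀ => rfl
    | add x₁ x₂ h₁ h₂ => simp only [map_add, h₁, h₂]
  · intro hlt
    obtain ⟨m, rfl⟩ : ∃ m, b = m + 1 := ⟨b - 1, by omega⟩
    induction x using TensorProduct.induction_on with
    | zero => simp
    | tmul r x₀ =>
      have h1 : lead (m + 1) (Submodule.inclusion (mono hab) x₀) = 0 :=
        (lead_ker m _).mpr (mono (by omega : a ≤ m) x₀.2)
      simp only [LinearMap.baseChange_tmul, ffa_leadR_tmul, h1, TensorProduct.tmul_zero]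
    | add x₁ x₂ h₁ h₂ => simp only [map_add, h₁, h₂, add_zero]

/-- the lattices exhaust `R ⊗ 𝒜` -/
theorem ffa_res_lat_exh (mono : Monotone Λ) (exh : ∀ a : 𝒜, ∃ m, a ∈ Λ m)
    (lead_ker : ∀ (m : ℕ) (x : ↥(Λ (m + 1))), lead (m + 1) x = 0 ↔ (x : 𝒜) ∈ Λ m)
    (w : R ⊗[O] 𝒜) : ∃ (m : ℕ) (x : R ⊗[O] ↥(Λ m)), ffa_incl R Λ m x = w := by
  induction w using TensorProduct.induction_on with
  | zero => exact ⟨0, 0, by simp⟩
  | tmul r a =>
    obtain ⟨m, hm⟩ := exh a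
    exact ⟨m, r ⊗ₜ[O] ⟨a, hm⟩, rfl⟩
  | add w₁ w₂ h₁ h₂ =>
    obtain ⟨m₁, x₁, hx₁⟩ := h₁
    obtain ⟨m₂, x₂, hx₂⟩ := h₂
    obtain ⟨z₁, hz₁, -⟩ := ffa_res_lat_up (lead := lead) R mono lead_ker m₁ (max m₁ m₂)
      (le_max_left _ _) x₁
    obtain ⟨z₂, hz₂, -⟩ := ffa_res_lat_up (lead := lead) R mono lead_ker m₂ (max m₁ m₂)
      (le_max_right _ _) x₂
    exact ⟨max m₁ m₂, z₁ + z₂, by rw [map_add, hz₁, hz₂, hx₁, hx₂]⟩

/-- the leading term over `R` is onto where `lead` is -/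
theorem ffa_res_lat_leadR_surjective {m : ℕ} (h : Function.Surjective (lead m)) :
    Function.Surjective (ffa_leadR R Λ lead m) := by
  intro c
  induction c using TensorProduct.induction_on with
  | zero => exact ⟨0, by simp⟩
  | tmul r c₀ =>
    obtain ⟨x, rfl⟩ := h c₀
    exact ⟨r ⊗ₜ[O] x, rfl⟩
  | add c₁ c₂ h₁ h₂ =>
    obtain ⟨x₁, rfl⟩ := h₁
    obtain ⟨x₂, rfl⟩ := h₂
    exact ⟨x₁ + x₂, map_add _ _ _⟩

section good

variable {R}

/-- (DIV) over a good base: if `f` is unit-leading in `R ⊗ Λ s` and `f · w ∈ R ⊗ Λ (j + s)` with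
`j ≥ m0`, then `w ∈ R ⊗ Λ j`. -/
theorem ffa_res_lat_div (mono : Monotone Λ) (exh : ∀ a : 𝒜, ∃ m, a ∈ Λ m)
    (mul_mem : ∀ (a b : ℕ) (x y : 𝒜), x ∈ Λ a → y ∈ Λ b → x * y ∈ Λ (a + b))
    (lead_ker : ∀ (m : ℕ) (x : ↥(Λ (m + 1))), lead (m + 1) x = 0 ↔ (x : 𝒜) ∈ Λ m)
    (lead_mul : ∀ (a b : ℕ) (x : ↥(Λ a)) (y : ↥(Λ b)),
      lead (a + b) ⟨(x : 𝒜) * (y : 𝒜), mul_mem a b x y x.2 y.2⟩ = lead a x * lead b y)
    {m0 : ℕ} (hgood : ffa_IsGood Λ lead m0 R) (s j : ℕ) (f : R ⊗[O] ↥(Λ s)) (w : R ⊗[O] 𝒜)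
    (hf : ffa_IsUL R Λ lead s f) (hj : m0 ≤ j)
    (hy : ∃ y : R ⊗[O] ↥(Λ (j + s)), ffa_incl R Λ (j + s) y = ffa_incl R Λ s f * w) :
    ∃ x : R ⊗[O] ↥(Λ j), ffa_incl R Λ j x = w := by
  obtain ⟨y, hy⟩ := hy
  -- descending induction on the level of a representative of `w`
  have key : ∀ d : ℕ, (∃ x' : R ⊗[O] ↥(Λ (j + d)), ffa_incl R Λ (j + d) x' = w) →
      ∃ x : R ⊗[O] ↥(Λ j), ffa_incl R Λ j x = w := by
    intro d
    induction d with
    | zero => exact fun h => h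
    | succ d ih =>
      rintro ⟨x', hx'⟩
      apply ih
      -- the product `f · x'` at level `s + (j + d + 1)`
      obtain ⟨z, hz, hz'⟩ := ffa_res_lat_mul R mul_mem lead_mul s (j + (d + 1)) f x'
      -- `y` lifted to the same level has zero leading term
      obtain ⟨y', hy', hy'0⟩ := ffa_res_lat_up (lead := lead) R mono lead_ker (j + s)
        (s + (j + (d + 1))) (by omega) y
      have hzy : z = y' := by
        apply hgood.inj (s + (j + (d + 1)))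
        rw [hz, hy', hy, hx']
      have h0 : ffa_leadR R Λ lead s f * ffa_leadR R Λ lead (j + (d + 1)) x' = 0 := by
        rw [← hz', hzy]
        exact hy'0 (by omega)
      have h1 : ffa_leadR R Λ lead (j + (d + 1)) x' = 0 := by
        have := congrArg (fun t => (↑(hf.unit⁻¹) : R ⊗[O] C) * t) h0
        simpa [← mul_assoc] using this
      obtain ⟨v, hv⟩ := hgood.exact (j + d) (by omega) x' h1
      exact ⟨v, hv.trans hx'⟩
  obtain ⟨m', x', hx'⟩ := ffa_res_lat_exh (lead := lead) R mono exh lead_ker w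
  obtain ⟨x'', hx'', -⟩ := ffa_res_lat_up (lead := lead) R mono lead_ker m' (j + m')
    (by omega) x'
  exact key m' ⟨x'', by rw [hx'', hx']⟩

/-- (B3, generation) over a good base: if `f` is unit-leading in `R ⊗ Λ m` and `s ≥ m0`, then
`R ⊗ 𝒜 = R ⊗ Λ (s + m) + f · (R ⊗ 𝒜)`. -/
theorem ffa_res_lat_gen (mono : Monotone Λ) (exh : ∀ a : 𝒜, ∃ m, a ∈ Λ m)
    (mul_mem : ∀ (a b : ℕ) (x y : 𝒜), x ∈ Λ a → y ∈ Λ b → x * y ∈ Λ (a + b))
    (lead_ker : ∀ (m : ℕ) (x : ↥(Λ (m + 1))), lead (m + 1) x = 0 ↔ (x : 𝒜) ∈ Λ m)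
    (lead_mul : ∀ (a b : ℕ) (x : ↥(Λ a)) (y : ↥(Λ b)),
      lead (a + b) ⟨(x : 𝒜) * (y : 𝒜), mul_mem a b x y x.2 y.2⟩ = lead a x * lead b y)
    {m0 : ℕ} (lead_surj : ∀ m, m0 ≤ m → Function.Surjective (lead m))
    (hgood : ffa_IsGood Λ lead m0 R) (m s : ℕ) (f : R ⊗[O] ↥(Λ m))
    (hf : ffa_IsUL R Λ lead m f) (hs : m0 ≤ s) (w : R ⊗[O] 𝒜) :
    ∃ (u : R ⊗[O] ↥(Λ (s + m))) (b : R ⊗[O] 𝒜),
      w = ffa_incl R Λ (s + m) u + ffa_incl R Λ m f * b := by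
  have key : ∀ d : ℕ, ∀ w : R ⊗[O] 𝒜,
      (∃ x : R ⊗[O] ↥(Λ (m + (s + d))), ffa_incl R Λ (m + (s + d)) x = w) →
      ∃ (u : R ⊗[O] ↥(Λ (s + m))) (b : R ⊗[O] 𝒜),
        w = ffa_incl R Λ (s + m) u + ffa_incl R Λ m f * b := by
    intro d
    induction d with
    | zero =>
      rintro w ⟨x, hx⟩
      obtain ⟨u, hu, -⟩ := ffa_res_lat_cast (lead := lead) R (by omega : m + (s + 0) = s + m) x
      exact ⟨u, 0, by rw [hu, hx, mul_zero, add_zero]⟩
    | succ d ih =>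
      rintro w ⟨x, hx⟩
      -- kill the leading term of `x` with a multiple of `f`
      obtain ⟨h, hh⟩ := ffa_res_lat_leadR_surjective R (lead_surj (s + (d + 1)) (by omega))
        ((↑(hf.unit⁻¹) : R ⊗[O] C) * ffa_leadR R Λ lead (m + (s + (d + 1))) x)
      obtain ⟨z, hz, hz'⟩ := ffa_res_lat_mul R mul_mem lead_mul m (s + (d + 1)) f h
      have h1 : ffa_leadR R Λ lead (m + (s + (d + 1))) (x - z) = 0 := by
        rw [map_sub, hz', hh, ← mul_assoc]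
        have : ffa_leadR R Λ lead m f * (↑(hf.unit⁻¹) : R ⊗[O] C) = 1 := hf.mul_val_inv
        rw [this, one_mul, sub_self]
      obtain ⟨v, hv⟩ := hgood.exact (m + (s + d)) (by omega) (x - z) h1
      obtain ⟨u, b, hub⟩ := ih (w - ffa_incl R Λ m f * ffa_incl R Λ (s + (d + 1)) h)
        ⟨v, hv.trans (by
          show ffa_incl R Λ (m + (s + (d + 1))) (x - z) = _
          rw [map_sub, hz, hx])⟩
      refine ⟨u, b + ffa_incl R Λ (s + (d + 1)) h, ?_⟩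
      rw [mul_add, ← add_assoc, ← hub]
      ring
  obtain ⟨m', x', hx'⟩ := ffa_res_lat_exh (lead := lead) R mono exh lead_ker w
  obtain ⟨x'', hx'', -⟩ := ffa_res_lat_up (lead := lead) R mono lead_ker m' (m + (s + m'))
    (by omega) x'
  exact key m' w ⟨x'', by rw [hx'', hx']⟩

end good

end Lat

/-- **[LAT]** the lattice calculus. -/
theorem ffa_res_lat : ffa_res_SeamLAT := by
  intro O _ _ _ 𝒜 _ _ C _ _ π Kb _ _ _ κ _ _ _ Λ lead g n m0 c0 pkg R _ _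
  refine ⟨fun a b x y => ffa_res_lat_mul R pkg.mul_mem pkg.lead_mul a b x y,
    fun a b hab x => ffa_res_lat_up R pkg.mono pkg.lead_ker a b hab x,
    fun w => ffa_res_lat_exh (lead := lead) R pkg.mono pkg.exh pkg.lead_ker w,
    fun hgood s j f w hf hj hy => ffa_res_lat_div pkg.mono pkg.exh pkg.mul_mem pkg.lead_ker
      pkg.lead_mul hgood s j f w hf hj hy,
    fun hgood m s f hf hs w => ffa_res_lat_gen pkg.mono pkg.exh pkg.mul_mem pkg.lead_ker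
      pkg.lead_mul pkg.lead_surj hgood m s f hf hs w⟩

end Fermat.Agent.FF
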