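/-
Project FF (S19), cell [ADD], sub-cell [A-RES]: THE ASSEMBLY (helper9).  Prefix `ffa_res_main_`.
Imports Mathlib + FF/Add/Res/Seams.

`ffa_res_main : [FIB] → [B3] → [TOOL] → [COLON] → [STEP1] → [STEP2] → ffa_SeamMUL → ffa_SeamRES`.

STEP 1: `f₁ ∈ I` unit-leading in `B ⊗ Λ m` (`m ≫ 0`); `GG := (f₁) : I` (degree `m n - 2g`);
STEP 2: `P := GG · I₀` (degree `m n - g`); the lattice `L_B(m, P)` has fibre dimension `1` at every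
point (fibrewise computation [STEP2]) ⟹ `L_B(m, P) = B · f₂`, and `f₂` restricts at every point `ξ`
to a nonzero multiple of the generator `x₀` of the fibre, `(x₀) = T_ξ · P_ξ`;
STEP 3: `f₂` is unit-leading ([TOOL].unit); `DD := (f₂) : P` has degree `g` and
`DD_ξ · P_ξ = (f₂ξ) = T_ξ · P_ξ`, so `DD_ξ = T_ξ` (cancellation in the Dedekind domain `k ⊗ 𝒜`).
-/
import Mathlib
import Fermat.Agent.FF.Add.Res.Seams

set_option autoImplicit false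
set_option linter.style.haveILetI false
set_option linter.unusedSectionVars false

noncomputable section

namespace Fermat.Agent.FF

open scoped TensorProduct
open Module

section Point

variable {O : Type} [CommRing O] [IsDomain O] [IsDiscreteValuationRing O]
  {𝒜 : Type} [CommRing 𝒜] [Algebra O 𝒜] {C : Type} [CommRing C] [Algebra O C] {π : O}
  {Kb : Type} [Field Kb] [IsAlgClosed Kb] [Algebra O Kb]
  {κ : Type} [Field κ] [IsAlgClosed κ] [Algebra O κ]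
  {Λ : ℕ → Submodule O 𝒜} {lead : ∀ m, ↥(Λ m) →ₗ[O] C} {g n m0 c0 : ℕ}
  (pkg : ff_IsPkg O 𝒜 C π Kb κ Λ lead g n m0 c0)
  {B : Type} [CommRing B] [Algebra O B]
  {k : Type} [Field k] [Algebra O k]

include pkg

/-- the fibrewise computation of STEP 2 at a point `ξ : B → k`. -/
theorem ffa_res_main_point (hB3 : ffa_res_SeamB3) (hSTEP2 : ffa_res_SeamSTEP2)
    (hk : ffa_IsFib Λ lead g n m0 k) (ξ : B →ₐ[O] k) (I I₀ GG : Ideal (B ⊗[O] 𝒜)) (m : ℕ)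
    (hm : m0 ≤ m) (f₁ : B ⊗[O] ↥(Λ m)) (hf₁ : ffa_IsUL B Λ lead m f₁)
    (hGG : ffa_fibre ξ GG * ffa_fibre ξ I = Ideal.span {ffa_incl k Λ m (ffa_bcΛ Λ ξ m f₁)})
    (T : Ideal (k ⊗[O] 𝒜))
    (hL : ff_LinEq O 𝒜 C k Λ lead T (ffa_fibre ξ I₀) (ffa_fibre ξ I) ⊤)
    (hU : ff_Uniq O 𝒜 C k Λ lead T) :
    ∃ x₀ : k ⊗[O] ↥(Λ m), ffa_IsUL k Λ lead m x₀ ∧ ffa_incl k Λ m x₀ ≠ 0 ∧
      Ideal.span {ffa_incl k Λ m x₀} = T * ffa_fibre ξ (GG * I₀) ∧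
      (∀ u ∈ ffa_L k Λ m (ffa_fibre ξ (GG * I₀)), ∃ c : k, u = c • x₀) ∧
      x₀ ∈ ffa_L k Λ m (ffa_fibre ξ (GG * I₀)) ∧
      finrank k ↥(ffa_L k Λ m (ffa_fibre ξ (GG * I₀))) = 1 := by
  have hmul : ffa_fibre ξ (GG * I₀) = ffa_fibre ξ GG * ffa_fibre ξ I₀ := Ideal.map_mul _ _ _
  obtain ⟨x₀, hx₀UL, hx₀span, hx₀uniq⟩ := hSTEP2 O 𝒜 C π Kb κ Λ lead g n m0 c0 pkg k hk
    (ffa_fibre ξ I) (ffa_fibre ξ I₀) (ffa_fibre ξ GG) T m (ffa_bcΛ Λ ξ m f₁) hm (hf₁.bc lead ξ) hGG hL hU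
  have hx₀ne : ffa_incl k Λ m x₀ ≠ 0 :=
    (hB3 O 𝒜 C π Kb κ Λ lead g n m0 c0 pkg k hk m x₀ hx₀UL).1
  have hx₀mem : x₀ ∈ ffa_L k Λ m (ffa_fibre ξ (GG * I₀)) := by
    rw [ffa_mem_L, hmul]
    have h1 : ffa_incl k Λ m x₀ ∈ Ideal.span {ffa_incl k Λ m x₀} := Ideal.mem_span_singleton_self _
    rw [hx₀span] at h1
    exact Ideal.mul_le_right h1
  have huniq : ∀ u ∈ ffa_L k Λ m (ffa_fibre ξ (GG * I₀)), ∃ c : k, u = c • x₀ := by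
    intro u hu
    rw [ffa_mem_L, hmul] at hu
    exact hx₀uniq u hu
  refine ⟨x₀, hx₀UL, hx₀ne, by rw [hmul]; exact hx₀span, huniq, hx₀mem, ?_⟩
  have hx₀0 : x₀ ≠ 0 := fun h => hx₀ne (by rw [h, map_zero])
  have hspan : ffa_L k Λ m (ffa_fibre ξ (GG * I₀)) = Submodule.span k {x₀} := by
    apply le_antisymm
    · intro u hu
      obtain ⟨c, rfl⟩ := huniq u hu
      exact Submodule.smul_mem _ _ (Submodule.mem_span_singleton_self _)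
    · rw [Submodule.span_le, Set.singleton_subset_iff]
      exact hx₀mem
  rw [hspan]
  exact finrank_span_singleton hx₀0

omit pkg in
/-- a generator of the rank one lattice `L_B(m, P)` restricts at a point to a nonzero multiple of
the generator of the lattice of the fibre. -/
theorem ffa_res_main_gen (ξ : B →ₐ[O] k) (P : Ideal (B ⊗[O] 𝒜)) (m : ℕ)
    (bas : Basis (Fin 1) B ↥(ffa_L B Λ m P))
    (hspan : (ffa_L k Λ m (ffa_fibre ξ P) : Set (k ⊗[O] ↥(Λ m))) ⊆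
      Submodule.span k (ffa_bcΛ Λ ξ m '' (ffa_L B Λ m P : Set (B ⊗[O] ↥(Λ m)))))
    (x₀ : k ⊗[O] ↥(Λ m)) (hx₀ : x₀ ≠ 0) (hx₀mem : x₀ ∈ ffa_L k Λ m (ffa_fibre ξ P)) :
    ∃ c : k, c ≠ 0 ∧ ffa_bcΛ Λ ξ m (bas 0 : ↥(ffa_L B Λ m P)).1 = c • x₀ := by
  set f₂ : B ⊗[O] ↥(Λ m) := (bas 0 : ↥(ffa_L B Λ m P)).1 with hf₂
  have hle : Submodule.span k (ffa_bcΛ Λ ξ m '' (ffa_L B Λ m P : Set (B ⊗[O] ↥(Λ m)))) ≤
      Submodule.span k {ffa_bcΛ Λ ξ m f₂} := by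
    rw [Submodule.span_le]
    rintro _ ⟨v, hv, rfl⟩
    have h1 : (⟨v, hv⟩ : ↥(ffa_L B Λ m P)) = bas.repr ⟨v, hv⟩ 0 • bas 0 := by
      conv_lhs => rw [← bas.sum_repr ⟨v, hv⟩]
      rw [Fin.sum_univ_one]
    have h2 : v = bas.repr ⟨v, hv⟩ 0 • f₂ := by
      have := congrArg Subtype.val h1
      rw [Submodule.coe_smul] at this
      exact this
    rw [h2, ffa_bcΛ_smul]
    exact Submodule.smul_mem _ _ (Submodule.mem_span_singleton_self _)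
  have hx : x₀ ∈ Submodule.span k {ffa_bcΛ Λ ξ m f₂} := hle (hspan hx₀mem)
  obtain ⟨c', hc'⟩ := Submodule.mem_span_singleton.mp hx
  have hc'0 : c' ≠ 0 := by
    rintro rfl
    rw [zero_smul] at hc'
    exact hx₀ hc'.symm
  refine ⟨c'⁻¹, inv_ne_zero hc'0, ?_⟩
  rw [← hc', smul_smul, inv_mul_cancel₀ hc'0, one_smul]

end Point

/-- **[A-RES] the assembly**: the sub-seams imply the two-step residuation seam. -/
theorem ffa_res_main (hFIB : ffa_res_SeamFIB) (hB3 : ffa_res_SeamB3) (hTOOL : ffa_res_SeamTOOL)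
    (hCOLON : ffa_res_SeamCOLON) (hSTEP1 : ffa_res_SeamSTEP1) (hSTEP2 : ffa_res_SeamSTEP2)
    (hMUL : ffa_SeamMUL) : ffa_SeamRES := by
  intro O _ _ _ 𝒜 _ _ C _ _ π Kb _ _ _ κ _ _ _ Λ lead g n m0 c0 pkg B _ _ Ξ ξK ξκ nice I I₀ hI hI₀
    TK Tκ hTK hTκ hLK hUK hLκ hUκ
  by_cases hB : Nontrivial B
  swap
  · -- the zero ring: `finrank B _ = 1 ≠ 2 g`
    exfalso
    haveI : Subsingleton B := not_nontrivial_iff_subsingleton.mp hB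
    have h1 : finrank B ((B ⊗[O] 𝒜) ⧸ I) = 1 := finrank_subsingleton
    have h2 := hI.2.2
    omega
  haveI : Nontrivial B := hB
  obtain ⟨fibK, fibκ, hn, -, -⟩ := hFIB O 𝒜 C π Kb κ Λ lead g n m0 c0 pkg
  obtain ⟨-, hker, hunit⟩ := hTOOL O 𝒜 C π Kb κ Λ lead g n m0 c0 pkg B Ξ ξK ξκ nice
  -- the level
  set m : ℕ := m0 + 2 * g + c0 + 2 with hm
  have hm0 : m0 ≤ m := by omega
  have hm1 : m0 + 1 ≤ m := by omega
  have hm2 : 2 * g + c0 ≤ (m - 1) * n := by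
    have h1 : m - 1 ≤ (m - 1) * n := Nat.le_mul_of_pos_right _ hn
    omega
  -- STEP 1
  obtain ⟨f₁, hf₁UL, hf₁I⟩ := hSTEP1 O 𝒜 C π Kb κ Λ lead g n m0 c0 pkg B Ξ ξK ξκ nice I (2 * g) m
    hI hm1 hm2
  obtain ⟨hGG, hle, hGGK, hGGκ⟩ := hCOLON O 𝒜 C π Kb κ Λ lead g n m0 c0 pkg B Ξ ξK ξκ nice m f₁
    hf₁UL I (2 * g) hI hf₁I
  set GG : Ideal (B ⊗[O] 𝒜) :=
    (Ideal.span {ffa_incl B Λ m f₁}).colon (I : Set (B ⊗[O] 𝒜)) with hGGdef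
  -- STEP 2
  have hP : ffa_IsRelDiv O 𝒜 B (GG * I₀) (m * n - 2 * g + g) :=
    hMUL O 𝒜 C π Kb κ Λ lead g n m0 c0 pkg B Ξ ξK ξκ nice GG I₀ _ _ hGG hI₀
  have hptK := fun t => ffa_res_main_point pkg hB3 hSTEP2 fibK (ξK t) I I₀ GG m hm0 f₁ hf₁UL
    (hGGK t) (TK t) (hLK t) (hUK t)
  have hptκ := fun t => ffa_res_main_point pkg hB3 hSTEP2 fibκ (ξκ t) I I₀ GG m hm0 f₁ hf₁UL
    (hGGκ t) (Tκ t) (hLκ t) (hUκ t)
  obtain ⟨⟨bas⟩, hspanK, hspanκ⟩ := hker (GG * I₀) (m * n - 2 * g + g) m 1 hP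
    (fun t => (hptK t).choose_spec.2.2.2.2.2) (fun t => (hptκ t).choose_spec.2.2.2.2.2)
  set f₂ : B ⊗[O] ↥(Λ m) := (bas 0 : ↥(ffa_L B Λ m (GG * I₀))).1 with hf₂
  have hf₂P : ffa_incl B Λ m f₂ ∈ GG * I₀ := (bas 0 : ↥(ffa_L B Λ m (GG * I₀))).2
  -- STEP 3: `f₂` is unit-leading
  have hf₂UL : ffa_IsUL B Λ lead m f₂ := by
    refine hunit _ fun t => ?_
    obtain ⟨x₀, hx₀UL, hx₀ne, -, -, hx₀mem, -⟩ := hptκ t
    have hx₀0 : x₀ ≠ 0 := fun h => hx₀ne (by rw [h, map_zero])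
    obtain ⟨c, hc0, hc⟩ := ffa_res_main_gen (ξκ t) (GG * I₀) m bas (hspanκ t) x₀ hx₀0 hx₀mem
    rw [← ffa_leadR_bcΛ, hc, map_smul, Algebra.smul_def]
    exact ((isUnit_iff_ne_zero.mpr hc0).map (algebraMap κ (κ ⊗[O] C))).mul hx₀UL
  obtain ⟨hDD, -, hDDK, -⟩ := hCOLON O 𝒜 C π Kb κ Λ lead g n m0 c0 pkg B Ξ ξK ξκ nice m f₂
    hf₂UL (GG * I₀) (m * n - 2 * g + g) hP hf₂P
  refine ⟨(Ideal.span {ffa_incl B Λ m f₂}).colon ((GG * I₀ : Ideal (B ⊗[O] 𝒜)) : Set (B ⊗[O] 𝒜)),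
    ?_, fun t => ?_⟩
  · have hdeg : m * n - (m * n - 2 * g + g) = g := by omega
    rw [hdeg] at hDD
    exact hDD
  · obtain ⟨x₀, -, hx₀ne, hx₀span, -, hx₀mem, -⟩ := hptK t
    have hx₀0 : x₀ ≠ 0 := fun h => hx₀ne (by rw [h, map_zero])
    obtain ⟨c, hc0, hc⟩ := ffa_res_main_gen (ξK t) (GG * I₀) m bas (hspanK t) x₀ hx₀0 hx₀mem
    have h1 := hDDK t
    rw [hc, map_smul, Algebra.smul_def,
      Ideal.span_singleton_mul_left_unit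
        ((isUnit_iff_ne_zero.mpr hc0).map (algebraMap Kb (Kb ⊗[O] 𝒜))), hx₀span] at h1
    haveI := fibK.ded
    have hne : ffa_fibre (ξK t) (GG * I₀) ≠ ⊥ := by
      intro h
      rw [h, Ideal.mul_bot, Ideal.span_singleton_eq_bot] at hx₀span
      exact hx₀ne hx₀span
    exact mul_right_cancel₀ hne h1


end Fermat.Agent.FF
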