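/-
Project FF (S19), cell [ADD], sub-cell [A-RES], leaf [PRIN] (helper24): over a nice base the ideal
of a unit-leading `f ∈ B ⊗ Λ m` is a relative divisor of degree `m n`.
Prefix `ffa_res_prin_`.  Deliverable: `ffa_res_prin`.
-/
import Mathlib
import Fermat.Agent.FF.Add.Res.Seams

set_option autoImplicit false

noncomputable section

namespace Fermat.Agent.FF

open scoped TensorProduct

section Prin

variable {O : Type} [CommRing O] {𝒜 : Type} [CommRing 𝒜] [Algebra O 𝒜]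
  {C : Type} [CommRing C] [Algebra O C]
  {Λ : ℕ → Submodule O 𝒜} {lead : ∀ m, ↥(Λ m) →ₗ[O] C}

/-- the fibre of a principal ideal `(incl f)` is the principal ideal of the base change of `f` -/
theorem ffa_res_prin_fibre {R R' : Type} [CommRing R] [Algebra O R] [CommRing R'] [Algebra O R']
    (ξ : R →ₐ[O] R') (m : ℕ) (f : R ⊗[O] ↥(Λ m)) :
    ffa_fibre ξ (Ideal.span {ffa_incl R Λ m f}) =
      Ideal.span {ffa_incl R' Λ m (ffa_bcΛ Λ ξ m f)} := by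
  unfold ffa_fibre
  rw [Ideal.map_span, Set.image_singleton, ffa_incl_bcΛ]

/-- generation (`LAT.gen`) makes the quotient by `(incl f)` a finite module -/
theorem ffa_res_prin_finite {R : Type} [CommRing R] [Algebra O R] (m s : ℕ)
    (f : R ⊗[O] ↥(Λ m)) [Module.Finite O ↥(Λ (s + m))]
    (hgen : ∀ w : R ⊗[O] 𝒜, ∃ (u : R ⊗[O] ↥(Λ (s + m))) (b : R ⊗[O] 𝒜),
      w = ffa_incl R Λ (s + m) u + ffa_incl R Λ m f * b) :
    Module.Finite R ((R ⊗[O] 𝒜) ⧸ Ideal.span {ffa_incl R Λ m f}) := by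
  have hfinΛ : Module.Finite R (R ⊗[O] ↥(Λ (s + m))) := Module.Finite.base_change O R _
  let φ : R ⊗[O] ↥(Λ (s + m)) →ₗ[R] (R ⊗[O] 𝒜) ⧸ Ideal.span {ffa_incl R Λ m f} :=
    (Ideal.Quotient.mkₐ R (Ideal.span {ffa_incl R Λ m f})).toLinearMap ∘ₗ ffa_incl R Λ (s + m)
  refine Module.Finite.of_surjective φ ?_
  intro q
  obtain ⟨w, rfl⟩ := Ideal.Quotient.mk_surjective q
  obtain ⟨u, b, rfl⟩ := hgen w
  refine ⟨u, ?_⟩
  simp only [φ, LinearMap.coe_comp, Function.comp_apply, AlgHom.toLinearMap_apply,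
    Ideal.Quotient.mkₐ_eq_mk]
  rw [map_add, left_eq_add, Ideal.Quotient.eq_zero_iff_mem]
  exact Ideal.mul_mem_right _ _ (Ideal.mem_span_singleton_self _)

end Prin

/-- **[PRIN]** -/
theorem ffa_res_prin (hFIB : ffa_res_SeamFIB) (hLAT : ffa_res_SeamLAT) (hB3 : ffa_res_SeamB3)
    (hTOOL : ffa_res_SeamTOOL) : ffa_res_SeamPRIN := by
  intro O _ _ _ 𝒜 _ _ C _ _ π Kb _ _ _ κ _ _ _ Λ lead g n m0 c0 pkg B _ _ _ Ξ ξK ξκ nice m f hf
  obtain ⟨hfK, hfκ, -, hfree, hgood⟩ := hFIB O 𝒜 C π Kb κ Λ lead g n m0 c0 pkg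
  obtain ⟨hfreeT, -, -⟩ := hTOOL O 𝒜 C π Kb κ Λ lead g n m0 c0 pkg B Ξ ξK ξκ nice
  have := nice.free
  have hgB : ffa_IsGood Λ lead m0 B := hgood B
  obtain ⟨-, -, -, -, hgen⟩ := hLAT O 𝒜 C π Kb κ Λ lead g n m0 c0 pkg B
  have := (hfree (m0 + m)).1
  have h0 := hgen hgB m m0 f hf le_rfl
  have h1 := ffa_res_prin_finite m m0 f h0
  have h2 := fun t => (hB3 O 𝒜 C π Kb κ Λ lead g n m0 c0 pkg Kb hfK m _ (hf.bc lead (ξK t))).2.2
  have h3 := fun t => (hB3 O 𝒜 C π Kb κ Λ lead g n m0 c0 pkg κ hfκ m _ (hf.bc lead (ξκ t))).2.2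
  refine hfreeT _ _ h1 (fun t => ?_) (fun t => ?_)
  · rw [ffa_res_prin_fibre]; exact h2 t
  · rw [ffa_res_prin_fibre]; exact h3 t

end Fermat.Agent.FF
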