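/-
Project FF (S19), cell [ADD], sub-cell [A-RES], leaf [STEP1] (helper25).
Prefix `ffa_res_step1_`.  Imports Mathlib + FF/Add/Res/{Seams, Nice, Tool, Lat} + FF/Add/{BC, BCEquiv}.

`ffa_res_step1 : ffa_res_SeamSTEP1` — over a nice base `B`, a relative divisor `J` of degree `d`
contains a unit-leading `f ∈ B ⊗ Λ m` as soon as `m ≥ m0 + 1` and `(m - 1) n ≥ d + c0`.

Proof.  `φ : B ⊗ Λ m → (B ⊗ 𝒜)/J` is onto (Nakayama at the closed points + Riemann at level `m`),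
hence split (`(B ⊗ 𝒜)/J` is free), so its kernel `L_B(m, J)` commutes with base change
(`ffa_tool_span_point`).  At a closed point `ξ : B → κ` (which is onto, `κ = O/π`), every
`γ ∈ κ ⊗ C` is the leading term of some `u ∈ L_κ(m, J_ξ)` (take any `u₀` with leading term `γ` —
`lead m` is onto — and correct it by an element of level `m - 1`, Riemann at level `m - 1`), and `u`
lifts to `L_B(m, J)`.  Hence the leading-term map `L_B(m, J) → B ⊗ C` is onto at every closed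
point, hence onto (Nakayama again); a preimage of `1` is the required `f`.
-/
import Mathlib
import Fermat.Agent.FF.Add.Res.Seams
import Fermat.Agent.FF.Add.Res.Nice
import Fermat.Agent.FF.Add.Res.Tool
import Fermat.Agent.FF.Add.Res.Lat
import Fermat.Agent.FF.Add.BC
import Fermat.Agent.FF.Add.BCEquiv

set_option autoImplicit false
set_option linter.unusedSectionVars false
set_option linter.style.haveILetI false

noncomputable section

namespace Fermat.Agent.FF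

open scoped TensorProduct
open Module

section Cancel

variable {O : Type} [CommRing O] {C : Type} [CommRing C] [Algebra O C]
  {B : Type} [CommRing B] [Algebra O B]
  {k : Type} [Field k] [Algebra O k] [Algebra B k] [IsScalarTower O B k]

/-- `k ⊗[B] (B ⊗[O] C) ≃ k ⊗[O] C` sends `a ⊗ c` to `a • bcC c` -/
theorem ffa_res_step1_cancel_tmul (a : k) (c : B ⊗[O] C) :
    TensorProduct.AlgebraTensorModule.cancelBaseChange O B k k C (a ⊗ₜ[B] c) =
      a • ffa_bcC C (IsScalarTower.toAlgHom O B k) c := by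
  induction c using TensorProduct.induction_on with
  | zero => simp
  | add x y hx hy => simp only [TensorProduct.tmul_add, map_add, hx, hy, smul_add]
  | tmul b x =>
    rw [TensorProduct.AlgebraTensorModule.cancelBaseChange_tmul, ffa_bcC_tmul,
      TensorProduct.smul_tmul', Algebra.smul_def, IsScalarTower.coe_toAlgHom', smul_eq_mul,
      mul_comm]

end Cancel

section Point

variable {O : Type} [CommRing O] {𝒜 : Type} [CommRing 𝒜] [Algebra O 𝒜]
  {B : Type} [CommRing B] [Algebra O B]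
  {k : Type} [Field k] [Algebra O k]

/-- a point with values in a quotient of `O` is onto -/
theorem ffa_res_step1_point_surjective (hres : Function.Surjective (algebraMap O k))
    (ξ : B →ₐ[O] k) : Function.Surjective ξ := by
  intro c
  obtain ⟨o, rfl⟩ := hres c
  exact ⟨algebraMap O B o, ξ.commutes o⟩

/-- along an onto point, the span of the image of a `B`-submodule is its image -/
theorem ffa_res_step1_span_image (Λ : ℕ → Submodule O 𝒜) (ξ : B →ₐ[O] k)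
    (hξ : Function.Surjective ξ) (m : ℕ) (L : Submodule B (B ⊗[O] ↥(Λ m)))
    (u : k ⊗[O] ↥(Λ m))
    (hu : u ∈ Submodule.span k (ffa_bcΛ Λ ξ m '' (L : Set (B ⊗[O] ↥(Λ m))))) :
    ∃ n ∈ L, ffa_bcΛ Λ ξ m n = u := by
  induction hu using Submodule.span_induction with
  | mem x hx =>
    obtain ⟨n, hn, rfl⟩ := hx
    exact ⟨n, hn, rfl⟩
  | zero => exact ⟨0, L.zero_mem, map_zero _⟩
  | add x y _ _ hx hy =>
    obtain ⟨n₁, hn₁, rfl⟩ := hx
    obtain ⟨n₂, hn₂, rfl⟩ := hy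
    exact ⟨n₁ + n₂, L.add_mem hn₁ hn₂, map_add _ _ _⟩
  | smul c x _ hx =>
    obtain ⟨n, hn, rfl⟩ := hx
    obtain ⟨b, rfl⟩ := hξ c
    exact ⟨b • n, L.smul_mem b hn, ffa_bcΛ_smul ξ m b n⟩

end Point

section Pkg

variable {O : Type} [CommRing O] [IsDomain O] [IsDiscreteValuationRing O]
  {𝒜 : Type} [CommRing 𝒜] [Algebra O 𝒜] {C : Type} [CommRing C] [Algebra O C] {π : O}
  {Kb : Type} [Field Kb] [IsAlgClosed Kb] [Algebra O Kb]
  {κ : Type} [Field κ] [IsAlgClosed κ] [Algebra O κ]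
  {Λ : ℕ → Submodule O 𝒜} {lead : ∀ m, ↥(Λ m) →ₗ[O] C} {g n m0 c0 : ℕ}
  (pkg : ff_IsPkg O 𝒜 C π Kb κ Λ lead g n m0 c0)
  {B : Type} [CommRing B] [Algebra O B] [Nontrivial B] {Ξ : Type}
  {ξK : Ξ → B →ₐ[O] Kb} {ξκ : Ξ → B →ₐ[O] κ} (nice : ffa_IsNice O Kb κ B Ξ ξK ξκ)
  {J : Ideal (B ⊗[O] 𝒜)} {d : ℕ} (hJ : ffa_IsRelDiv O 𝒜 B J d)

include pkg hJ

/-- Riemann on the fibre of a relative divisor at a closed point -/
theorem ffa_res_step1_riemann (ξ : B →ₐ[O] κ) (m : ℕ) (hm : m0 ≤ m) (hdm : d + c0 ≤ m * n)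
    (q : (κ ⊗[O] 𝒜) ⧸ ffa_fibre ξ J) :
    ∃ u : κ ⊗[O] ↥(Λ m), Ideal.Quotient.mk (ffa_fibre ξ J) (ffa_incl κ Λ m u) = q := by
  obtain ⟨⟨hfin, -, hrank⟩, -⟩ := ffa_seamBC O 𝒜 B κ κ ξ (AlgHom.id O κ) J d hJ
  exact pkg.riemann (ffa_fibre ξ J) m hfin hm (by rw [hrank]; exact hdm) q

include nice

/-- `φ : B ⊗ Λ m → (B ⊗ 𝒜)/J` is onto for `m ≫ 0` -/
theorem ffa_res_step1_phi_surjective (m : ℕ) (hm : m0 ≤ m) (hdm : d + c0 ≤ m * n) :
    Function.Surjective (ffa_tool_phi Λ B m J) := by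
  haveI := hJ.1
  refine ffa_nice_surjective nice (ffa_tool_phi Λ B m J) fun t => ?_
  letI := (ξκ t).toRingHom.toAlgebra
  haveI : IsScalarTower O B κ := ffa_tool_tower (ξκ t)
  intro w
  set eQ := ffa_bce_linearEquiv (O := O) (𝒜 := 𝒜) (B := B) (B' := κ) J with heQ
  set eP := TensorProduct.AlgebraTensorModule.cancelBaseChange O B κ κ ↥(Λ m) with heP
  obtain ⟨u, hu⟩ := ffa_res_step1_riemann pkg hJ (IsScalarTower.toAlgHom O B κ) m hm hdm (eQ w)
  refine ⟨eP.symm u, ?_⟩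
  apply eQ.injective
  rw [heQ, ffa_tool_square, ← heP, LinearEquiv.apply_symm_apply, ffa_tool_phi_apply]
  exact hu

/-- at a closed point, every `γ ∈ κ ⊗ C` is the leading term of an element of the lattice
`L_κ(m, J_ξ)` of the fibre -/
theorem ffa_res_step1_fibre (ξ : B →ₐ[O] κ) (m : ℕ) (hm : m0 + 1 ≤ m)
    (hdm : d + c0 ≤ (m - 1) * n) (γ : κ ⊗[O] C) :
    ∃ u ∈ ffa_L κ Λ m (ffa_fibre ξ J), ffa_leadR κ Λ lead m u = γ := by
  obtain ⟨u₀, hu₀⟩ := ffa_res_lat_leadR_surjective (Λ := Λ) (lead := lead) κ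
    (pkg.lead_surj m (by omega)) γ
  obtain ⟨v, hv⟩ := ffa_res_step1_riemann pkg hJ ξ (m - 1) (by omega) hdm
    (Ideal.Quotient.mk (ffa_fibre ξ J) (ffa_incl κ Λ m u₀))
  obtain ⟨v', hv'1, hv'2⟩ := ffa_res_lat_up (lead := lead) κ pkg.mono pkg.lead_ker (m - 1) m
    (by omega) v
  refine ⟨u₀ - v', ?_, ?_⟩
  · rw [ffa_mem_L, map_sub, hv'1]
    exact Ideal.Quotient.eq.mp hv.symm
  · rw [map_sub, hv'2 (by omega), sub_zero, hu₀]

/-- at a closed point, every `γ ∈ κ ⊗ C` is the leading term of (the image of) an element of the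
lattice `L_B(m, J)` -/
theorem ffa_res_step1_lift (t : Ξ) (m : ℕ) (hm : m0 + 1 ≤ m)
    (hdm : d + c0 ≤ (m - 1) * n) (γ : κ ⊗[O] C) :
    ∃ f ∈ ffa_L B Λ m J, ffa_bcC C (ξκ t) (ffa_leadR B Λ lead m f) = γ := by
  haveI := hJ.1
  haveI := hJ.2.1
  have hle : d + c0 ≤ m * n := hdm.trans (Nat.mul_le_mul_right n (Nat.sub_le m 1))
  obtain ⟨ψ, hψ0⟩ := Module.projective_lifting_property (ffa_tool_phi Λ B m J) LinearMap.id
    (ffa_res_step1_phi_surjective pkg nice hJ m (by omega) hle)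
  have hψ : ffa_tool_phi Λ B m J ∘ₗ ψ ∘ₗ ffa_tool_phi Λ B m J = ffa_tool_phi Λ B m J := by
    rw [← LinearMap.comp_assoc, hψ0, LinearMap.id_comp]
  obtain ⟨u, huL, hu⟩ := ffa_res_step1_fibre pkg nice hJ (ξκ t) m hm hdm γ
  obtain ⟨f, hf, rfl⟩ := ffa_res_step1_span_image Λ (ξκ t)
    (ffa_res_step1_point_surjective pkg.res_surj (ξκ t)) m (ffa_L B Λ m J) u
    (ffa_tool_span_point Λ (ξκ t) J m ψ hψ huL)
  exact ⟨f, hf, by rw [← ffa_leadR_bcΛ, hu]⟩

end Pkg

/-- **[STEP1]** over a nice base, a relative divisor `J` of degree `d` contains a unit-leading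
`f ∈ B ⊗ Λ m` as soon as `m ≥ m0 + 1` and `(m - 1) n ≥ d + c0`. -/
theorem ffa_res_step1 : ffa_res_SeamSTEP1 := by
  intro O _ _ _ 𝒜 _ _ C _ _ π Kb _ _ _ κ _ _ _ Λ lead g n m0 c0 pkg B _ _ _ Ξ ξK ξκ nice J d m hJ
    hm hdm
  haveI := pkg.Cfin
  -- the leading-term map on the lattice `L_B(m, J)`
  set Φ : ↥(ffa_L B Λ m J) →ₗ[B] B ⊗[O] C :=
    (ffa_leadR B Λ lead m).domRestrict (ffa_L B Λ m J) with hΦ
  have hsurj : Function.Surjective Φ := by
    refine ffa_nice_surjective (P := ↥(ffa_L B Λ m J)) (Q := B ⊗[O] C) nice Φ fun t => ?_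
    letI := (ξκ t).toRingHom.toAlgebra
    haveI : IsScalarTower O B κ := ffa_tool_tower (ξκ t)
    have hξ : IsScalarTower.toAlgHom O B κ = ξκ t := AlgHom.ext fun _ => rfl
    intro w
    set eC := TensorProduct.AlgebraTensorModule.cancelBaseChange O B κ κ C with heC
    obtain ⟨f, hf, hfγ⟩ := ffa_res_step1_lift pkg nice hJ t m hm hdm (eC w)
    refine ⟨(1 : κ) ⊗ₜ[B] ⟨f, hf⟩, ?_⟩
    apply eC.injective
    rw [LinearMap.baseChange_tmul, heC, ffa_res_step1_cancel_tmul, one_smul, hξ, ← heC, ← hfγ]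
    rfl
  obtain ⟨⟨f, hf⟩, hf1⟩ := hsurj 1
  refine ⟨f, ?_, hf⟩
  have h1 : ffa_leadR B Λ lead m f = 1 := hf1
  unfold ffa_IsUL
  rw [h1]
  exact isUnit_one

end Fermat.Agent.FF
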