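/-
Project FF (S19), cell [ADD], sub-cell [A-RES], leaf [STEP2]: the fibrewise computation
`L(m·cusps − G' − I₀') = k · x₀` with `x₀` unit-leading and `(x₀) = T · G' · I₀'`.
Prefix `ffa_res_step2_`.  Imports Mathlib + FF/Add/Res/Seams.
-/
import Mathlib
import Fermat.Agent.FF.Add.Res.Seams

set_option autoImplicit false
set_option linter.unusedSectionVars false
set_option linter.style.haveILetI false

noncomputable section

namespace Fermat.Agent.FF

open scoped TensorProduct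

/-- **[STEP2]** from the lattice calculus [LAT] and `f ≠ 0` for unit-leading `f` ([B3]). -/
theorem ffa_res_step2 (hLAT : ffa_res_SeamLAT) (hB3 : ffa_res_SeamB3) : ffa_res_SeamSTEP2 := by
  intro O _ _ _ 𝒜 _ _ C _ _ π Kb _ _ _ κ _ _ _ Λ lead g n m0 c0 pkg k _ _ hk I' I₀' G' T m f₁
    hm hf₁ hGI hLin hUniq
  obtain ⟨hmul, -, -, hdiv, -⟩ := hLAT O 𝒜 C π Kb κ Λ lead g n m0 c0 pkg k
  haveI : IsDedekindDomain (k ⊗[O] 𝒜) := hk.ded
  obtain ⟨s, h, h', hh, hh', hE⟩ := hLin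
  have hh1 : ffa_IsUL k Λ lead s h := hh
  have hh1' : ffa_IsUL k Λ lead s h' := hh'
  have hE' : Ideal.span {ffa_incl k Λ s h} * T * I₀' = Ideal.span {ffa_incl k Λ s h'} * I' := by
    have := hE
    rw [Ideal.mul_top] at this
    exact this
  have hne : ffa_incl k Λ s h ≠ 0 := (hB3 O 𝒜 C π Kb κ Λ lead g n m0 c0 pkg k hk s h hh1).1
  -- the ideal `W = T · (G' · I₀')`
  set W : Ideal (k ⊗[O] 𝒜) := T * (G' * I₀') with hW
  have hhW : Ideal.span {ffa_incl k Λ s h} * W =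
      Ideal.span {ffa_incl k Λ s h' * ffa_incl k Λ m f₁} := by
    calc Ideal.span {ffa_incl k Λ s h} * W
        = (Ideal.span {ffa_incl k Λ s h} * T * I₀') * G' := by rw [hW]; ac_rfl
      _ = Ideal.span {ffa_incl k Λ s h'} * (G' * I') := by rw [hE']; ac_rfl
      _ = Ideal.span {ffa_incl k Λ s h' * ffa_incl k Λ m f₁} := by
          rw [hGI, Ideal.span_singleton_mul_span_singleton]
  -- the element `w`
  have hmem : ffa_incl k Λ s h' * ffa_incl k Λ m f₁ ∈ Ideal.span {ffa_incl k Λ s h} := by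
    have h1 : ffa_incl k Λ s h' * ffa_incl k Λ m f₁ ∈ Ideal.span {ffa_incl k Λ s h} * W := by
      rw [hhW]
      exact Ideal.mem_span_singleton_self _
    exact Ideal.mul_le_left h1
  obtain ⟨w, hw⟩ := Ideal.mem_span_singleton'.mp hmem
  -- hw : w * incl h = incl h' * incl f₁
  have hwW : Ideal.span {w} = W := by
    have hne' : (Ideal.span {ffa_incl k Λ s h} : Ideal (k ⊗[O] 𝒜)) ≠ 0 := by
      rw [Ne, Ideal.zero_eq_bot, Ideal.span_singleton_eq_bot]
      exact hne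
    apply mul_left_cancel₀ hne'
    rw [hhW, Ideal.span_singleton_mul_span_singleton, ← hw, mul_comm]
  -- `w` lies in the lattice of level `m`
  obtain ⟨y, hy, -⟩ := hmul m s f₁ h'
  obtain ⟨x₀, hx₀⟩ := hdiv hk.good s m h w hh1 hm ⟨y, by rw [hy, mul_comm, ← hw, mul_comm]⟩
  -- `x₀` is unit-leading
  obtain ⟨z1, hz1, hz1l⟩ := hmul s m h x₀
  obtain ⟨z2, hz2, hz2l⟩ := hmul s m h' f₁
  have hz12 : z1 = z2 := by
    apply hk.good.inj (s + m)
    rw [hz1, hz2, hx₀, ← hw, mul_comm]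
  have hx₀UL : ffa_IsUL k Λ lead m x₀ := by
    have h1 : IsUnit (ffa_leadR k Λ lead s h * ffa_leadR k Λ lead m x₀) := by
      rw [← hz1l, hz12, hz2l]
      exact hh1'.mul hf₁
    exact isUnit_of_mul_isUnit_right h1
  refine ⟨x₀, hx₀UL, by rw [hx₀]; exact hwW, fun u hu => ?_⟩
  refine hUniq m u x₀ hx₀UL (fun v hv => ?_)
  have h1 : ffa_incl k Λ m u * v ∈ W := by
    rw [hW, mul_comm T]
    exact Ideal.mul_mem_mul hu hv
  rw [← hwW, ← hx₀] at h1
  exact Ideal.mem_span_singleton.mp h1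

end Fermat.Agent.FF
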