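/-
Project FF (S19), cell [ADD], sub-cell [A-RES]: THE CLOSED TERM (helper9).
`theorem ffa_seamRES : ffa_SeamRES` — the two-step residuation seam of FF/Add/Seams.lean, VERBATIM,
from the leaves [FIB] (helper24), [LAT] [B3] (helper13), [TOOL] [COLON] [MAIN] (helper9),
[COLON-FIB] [STEP2] (helper26), [PRIN] (helper24), [STEP1] (helper25), and `ffa_seamBC` (helper26),
`ffa_seamMUL` (helper25).
-/
import Mathlib
import Fermat.Agent.FF.Add.BC
import Fermat.Agent.FF.Add.MulSeam
import Fermat.Agent.FF.Add.Res.Fib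
import Fermat.Agent.FF.Add.Res.Lat
import Fermat.Agent.FF.Add.Res.B3
import Fermat.Agent.FF.Add.Res.Tool
import Fermat.Agent.FF.Add.Res.Prin
import Fermat.Agent.FF.Add.Res.Colon
import Fermat.Agent.FF.Add.Res.Step1
import Fermat.Agent.FF.Add.Res.Step2
import Fermat.Agent.FF.Add.Res.Main

set_option autoImplicit false

namespace Fermat.Agent.FF

/-- **[COLON]**, closed. -/
theorem ffa_res_seamCOLON : ffa_res_SeamCOLON :=
  ffa_res_colon ffa_res_fib ffa_res_b3
    (ffa_res_prin ffa_res_fib ffa_res_lat ffa_res_b3 (ffa_res_tool ffa_res_fib)) ffa_seamBC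

/-- **[A-RES]** the two-step residuation seam. -/
theorem ffa_seamRES : ffa_SeamRES :=
  ffa_res_main ffa_res_fib ffa_res_b3 (ffa_res_tool ffa_res_fib) ffa_res_seamCOLON ffa_res_step1
    (ffa_res_step2 ffa_res_lat ffa_res_b3) ffa_seamMUL

end Fermat.Agent.FF
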