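/-
Project FF (S19), cell [ADD], sub-cell [A-RES], leaf [FIB] (helper24): the package provides the two
fibre fields `Kb`, `κ`, goodness of every flat base, `0 < n`, and freeness of the lattices.
Prefix `ffa_res_fib_`.  Deliverable: `ffa_res_fib : ffa_res_SeamFIB`.
-/
import Mathlib
import Fermat.Agent.FF.Add.Res.Seams

set_option autoImplicit false

noncomputable section

namespace Fermat.Agent.FF

open scoped TensorProduct

/-! ### general lemmas on `κ ⊗ M`, `κ = O / π` -/

section Gen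

variable {O : Type} [CommRing O] {κ : Type} [Field κ] [Algebra O κ]

/-- every element of `κ ⊗ M` is of the form `1 ⊗ x` -/
theorem ffa_res_fib_exists_one_tmul (hsurj : Function.Surjective (algebraMap O κ))
    {M : Type} [AddCommGroup M] [Module O M] (u : κ ⊗[O] M) : ∃ x : M, u = (1 : κ) ⊗ₜ[O] x := by
  induction u using TensorProduct.induction_on with
  | zero => exact ⟨0, (TensorProduct.tmul_zero _ _).symm⟩
  | tmul c y =>
    obtain ⟨o, rfl⟩ := hsurj c
    refine ⟨o • y, ?_⟩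
    rw [TensorProduct.tmul_smul, TensorProduct.smul_tmul', Algebra.algebraMap_eq_smul_one]
  | add u v hu hv =>
    obtain ⟨x, rfl⟩ := hu
    obtain ⟨y, rfl⟩ := hv
    exact ⟨x + y, (TensorProduct.tmul_add _ _ _).symm⟩

/-- the kernel of `M → κ ⊗ M` is `π M` -/
theorem ffa_res_fib_one_tmul_eq_zero (π : O) (hsurj : Function.Surjective (algebraMap O κ))
    (hker : RingHom.ker (algebraMap O κ) = Ideal.span {π})
    {M : Type} [AddCommGroup M] [Module O M] (x : M) (h : (1 : κ) ⊗ₜ[O] x = 0) :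
    ∃ y : M, x = π • y := by
  have hsurj' : Function.Surjective (Algebra.ofId O κ) := hsurj
  have hI : RingHom.ker (Algebra.ofId O κ) = Ideal.span {π} := by
    rw [← hker]; rfl
  let e₁ := Ideal.quotientKerAlgEquivOfSurjective hsurj'
  let F : κ ⊗[O] M →ₗ[O] M ⧸ (RingHom.ker (Algebra.ofId O κ) • (⊤ : Submodule O M)) :=
    (TensorProduct.quotTensorEquivQuotSMul M (RingHom.ker (Algebra.ofId O κ))).toLinearMap ∘ₗ
      LinearMap.rTensor M e₁.symm.toLinearMap
  have hF : F ((1 : κ) ⊗ₜ[O] x) = Submodule.Quotient.mk x := by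
    have h1 : e₁.symm (1 : κ) = Ideal.Quotient.mk _ (1 : O) := by
      rw [map_one, map_one]
    simp only [F, LinearMap.coe_comp, LinearEquiv.coe_coe, Function.comp_apply,
      LinearMap.rTensor_tmul, AlgEquiv.toLinearMap_apply, h1]
    rw [TensorProduct.quotTensorEquivQuotSMul_mk_tmul, one_smul]
  rw [h, map_zero] at hF
  have hx : x ∈ RingHom.ker (Algebra.ofId O κ) • (⊤ : Submodule O M) :=
    (Submodule.Quotient.mk_eq_zero _).1 hF.symm
  rw [hI, Submodule.ideal_span_singleton_smul, Submodule.mem_smul_pointwise_iff_exists] at hx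
  obtain ⟨y, -, hy⟩ := hx
  exact ⟨y, hy.symm⟩

end Gen

/-! ### the lattice sequences -/

section Pkg

variable {O : Type} [CommRing O]
  {𝒜 : Type} [CommRing 𝒜] [Algebra O 𝒜] {C : Type} [CommRing C] [Algebra O C] {π : O}
  {Kb : Type} [Field Kb] [Algebra O Kb] {κ : Type} [Field κ] [Algebra O κ]
  {Λ : ℕ → Submodule O 𝒜} {lead : ∀ m, ↥(Λ m) →ₗ[O] C} {g n m0 c0 : ℕ}

/-- right exactness: over EVERY base `R`, an element of `R ⊗ Λ (m+1)` with zero leading term comes
from `R ⊗ Λ m` (as soon as `lead (m+1)` is onto). -/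
theorem ffa_res_fib_exact (pkg : ff_IsPkg O 𝒜 C π Kb κ Λ lead g n m0 c0)
    (R : Type) [CommRing R] [Algebra O R] (m : ℕ) (hm : m0 ≤ m + 1)
    (u : R ⊗[O] ↥(Λ (m + 1))) (hu : ffa_leadR R Λ lead (m + 1) u = 0) :
    ∃ v : R ⊗[O] ↥(Λ m), ffa_incl R Λ m v = ffa_incl R Λ (m + 1) u := by
  set ι : ↥(Λ m) →ₗ[O] ↥(Λ (m + 1)) := Submodule.inclusion (pkg.mono (Nat.le_succ m)) with hι
  have hex : Function.Exact ι (lead (m + 1)) := by
    intro y
    rw [pkg.lead_ker m y]
    constructor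
    · intro hy
      exact ⟨⟨(y : 𝒜), hy⟩, Subtype.ext rfl⟩
    · rintro ⟨x, rfl⟩
      exact x.2
  have hex' := lTensor_exact R hex (pkg.lead_surj (m + 1) hm)
  have hu' : (LinearMap.lTensor R (lead (m + 1))) u = 0 := by
    rw [← LinearMap.baseChange_eq_ltensor]; exact hu
  obtain ⟨v, hv⟩ := (hex' u).1 hu'
  refine ⟨v, ?_⟩
  rw [← hv]
  have hcomp : ∀ w : R ⊗[O] ↥(Λ m),
      ffa_incl R Λ (m + 1) (LinearMap.lTensor R ι w) = ffa_incl R Λ m w := by
    intro w
    induction w using TensorProduct.induction_on with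
    | zero => simp
    | tmul r x => rfl
    | add x y hx hy => simp only [map_add, hx, hy]
  exact (hcomp v).symm

/-- over a flat base the lattices inject -/
theorem ffa_res_fib_inj_flat (Λ : ℕ → Submodule O 𝒜) (R : Type) [CommRing R] [Algebra O R]
    [Module.Flat O R] (m : ℕ) : Function.Injective (ffa_incl R Λ m) := by
  unfold ffa_incl
  rw [LinearMap.baseChange_eq_ltensor]
  exact Module.Flat.lTensor_preserves_injective_linearMap _ Subtype.val_injective

/-- over `κ` the lattices inject (saturation) -/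
theorem ffa_res_fib_inj_κ (pkg : ff_IsPkg O 𝒜 C π Kb κ Λ lead g n m0 c0) (m : ℕ) :
    Function.Injective (ffa_incl κ Λ m) := by
  rw [injective_iff_map_eq_zero]
  intro u hu
  obtain ⟨x, rfl⟩ := ffa_res_fib_exists_one_tmul pkg.res_surj u
  rw [ffa_incl_tmul] at hu
  obtain ⟨a, ha⟩ := ffa_res_fib_one_tmul_eq_zero π pkg.res_surj pkg.res_ker (x : 𝒜) hu
  have ha' : a ∈ Λ m := pkg.sat m a (ha ▸ x.2)
  have hx : x = π • (⟨a, ha'⟩ : ↥(Λ m)) := Subtype.ext ha
  have hπ : algebraMap O κ π = 0 := by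
    rw [← RingHom.mem_ker, pkg.res_ker]; exact Ideal.mem_span_singleton_self π
  rw [hx, TensorProduct.tmul_smul, TensorProduct.smul_tmul', Algebra.smul_def, mul_one, hπ,
    TensorProduct.zero_tmul]

end Pkg

/-! ### freeness of the lattices, `0 < n`, the fibre fields -/

section Dvr

variable {O : Type} [CommRing O] [IsDomain O] [IsDiscreteValuationRing O]
  {𝒜 : Type} [CommRing 𝒜] [Algebra O 𝒜] {C : Type} [CommRing C] [Algebra O C] {π : O}
  {Kb : Type} [Field Kb] [Algebra O Kb] {κ : Type} [Field κ] [Algebra O κ]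
  {Λ : ℕ → Submodule O 𝒜} {lead : ∀ m, ↥(Λ m) →ₗ[O] C} {g n m0 c0 : ℕ}

/-- `𝒜` is torsion-free over `O` -/
theorem ffa_res_fib_torsionFree (pkg : ff_IsPkg O 𝒜 C π Kb κ Λ lead g n m0 c0) :
    Module.IsTorsionFree O 𝒜 := by
  have hpow : ∀ (k : ℕ) (a : 𝒜), π ^ k • a = 0 → a = 0 := by
    intro k
    induction k with
    | zero => intro a ha; simpa using ha
    | succ k ih =>
      intro a ha
      rw [pow_succ, mul_smul] at ha
      exact pkg.tf a (ih _ ha)
  have hne : ∀ (r : O) (a : 𝒜), r ≠ 0 → r • a = 0 → a = 0 := by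
    intro r a hr ha
    obtain ⟨k, hk⟩ := IsDiscreteValuationRing.associated_pow_irreducible hr pkg.irr
    obtain ⟨u, hu⟩ := hk
    apply hpow k a
    rw [← hu, mul_comm, mul_smul, ha, smul_zero]
  refine ⟨fun r hr a b hab => ?_⟩
  have h0 : r • (a - b) = 0 := by
    have : r • a = r • b := hab
    rw [smul_sub, this, sub_self]
  exact sub_eq_zero.1 (hne r _ hr.ne_zero h0)

/-- the lattices are finite free over `O` -/
theorem ffa_res_fib_free (pkg : ff_IsPkg O 𝒜 C π Kb κ Λ lead g n m0 c0) (m : ℕ) :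
    Module.Finite O ↥(Λ m) ∧ Module.Free O ↥(Λ m) := by
  have hfin : Module.Finite O ↥(Λ m) := Module.Finite.iff_fg.2 (pkg.fg m)
  have htf := ffa_res_fib_torsionFree pkg
  have htf' : Module.IsTorsionFree O ↥(Λ m) :=
    Function.Injective.moduleIsTorsionFree (Λ m).subtype Subtype.val_injective (fun _ _ => rfl)
  exact ⟨hfin, Module.free_of_finite_type_torsion_free'⟩

omit [IsDomain O] [IsDiscreteValuationRing O] in
/-- Nullstellensatz: the residue fields of a fibre over an algebraically closed field are the base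
field. -/
theorem ffa_res_fib_res (pkg : ff_IsPkg O 𝒜 C π Kb κ Λ lead g n m0 c0)
    (k : Type) [Field k] [IsAlgClosed k] [Algebra O k]
    (P : Ideal (k ⊗[O] 𝒜)) (hP : P.IsMaximal) :
    Function.Surjective (algebraMap k ((k ⊗[O] 𝒜) ⧸ P)) := by
  have := pkg.ft
  have hft : Algebra.FiniteType k (k ⊗[O] 𝒜) := Algebra.FiniteType.baseChange k
  let _ : Field ((k ⊗[O] 𝒜) ⧸ P) := Ideal.Quotient.field P
  have hfin : Module.Finite k ((k ⊗[O] 𝒜) ⧸ P) :=
    finite_of_finite_type_of_isJacobsonRing k ((k ⊗[O] 𝒜) ⧸ P)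
  have hint : Algebra.IsIntegral k ((k ⊗[O] 𝒜) ⧸ P) := inferInstance
  exact (IsAlgClosed.algebraMap_bijective_of_isIntegral (k := k) (K := (k ⊗[O] 𝒜) ⧸ P)).2

/-- `0 < n`: otherwise `κ ⊗ 𝒜` would be a field -/
theorem ffa_res_fib_npos (pkg : ff_IsPkg O 𝒜 C π Kb κ Λ lead g n m0 c0) : 0 < n := by
  by_contra hn
  have hn0 : n = 0 := by omega
  have := pkg.Cfin
  have := pkg.Cfree
  have hC : Subsingleton C := by
    rw [← Module.finrank_eq_zero_iff_of_free O C, pkg.Crank, hn0]
  -- all the lattices are `Λ 0`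
  have hstep : ∀ m, Λ (m + 1) ≤ Λ m := by
    intro m x hx
    exact (pkg.lead_ker m ⟨x, hx⟩).1 (Subsingleton.elim _ _)
  have hall : ∀ m, Λ m ≤ Λ 0 := by
    intro m
    induction m with
    | zero => exact le_rfl
    | succ m ih => exact (hstep m).trans ih
  have hconst : ∀ a : 𝒜, ∃ o : O, a = algebraMap O 𝒜 o := by
    intro a
    obtain ⟨m, hm⟩ := pkg.exh a
    exact pkg.zero_const a (hall m hm)
  -- `κ ⊗ 𝒜` is a quotient of `κ`
  have hsurj : Function.Surjective (algebraMap κ (κ ⊗[O] 𝒜)) := by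
    intro w
    induction w using TensorProduct.induction_on with
    | zero => exact ⟨0, map_zero _⟩
    | tmul c a =>
      obtain ⟨o, rfl⟩ := hconst a
      refine ⟨o • c, ?_⟩
      rw [Algebra.TensorProduct.algebraMap_apply, Algebra.algebraMap_eq_smul_one o,
        TensorProduct.tmul_smul, TensorProduct.smul_tmul']
      rfl
    | add x y hx hy =>
      obtain ⟨c, rfl⟩ := hx
      obtain ⟨d, rfl⟩ := hy
      exact ⟨c + d, map_add _ _ _⟩
  have := pkg.dedκ
  apply pkg.notFieldκ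
  refine ⟨⟨0, 1, zero_ne_one⟩, mul_comm, ?_⟩
  intro a ha
  obtain ⟨c, rfl⟩ := hsurj a
  have hc : c ≠ 0 := by
    rintro rfl
    exact ha (map_zero _)
  exact ⟨algebraMap κ _ c⁻¹, by rw [← map_mul, mul_inv_cancel₀ hc, map_one]⟩

/-- a field `k` over which the lattices inject and `k ⊗ 𝒜` is Dedekind is a fibre field -/
theorem ffa_res_fib_isFib (pkg : ff_IsPkg O 𝒜 C π Kb κ Λ lead g n m0 c0)
    (k : Type) [Field k] [IsAlgClosed k] [Algebra O k] (hded : IsDedekindDomain (k ⊗[O] 𝒜))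
    (hinj : ∀ m, Function.Injective (ffa_incl k Λ m)) : ffa_IsFib Λ lead g n m0 k := by
  have hfree := ffa_res_fib_free pkg
  have hfin : ∀ m, Module.Finite k (k ⊗[O] ↥(Λ m)) := by
    intro m
    have := (hfree m).1
    exact Module.Finite.base_change O k ↥(Λ m)
  have hrank : ∀ m, m0 ≤ m → Module.finrank k (k ⊗[O] ↥(Λ m)) + g = m * n + 1 := by
    intro m hm
    have := (hfree m).1
    have := (hfree m).2
    rw [Module.finrank_baseChange]
    exact pkg.rank m hm
  refine ⟨⟨hinj, fun m hm u hu => ffa_res_fib_exact pkg k m (by omega) u hu⟩, hded,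
    fun P hP _ => ffa_res_fib_res pkg k P hP, hfin, hrank, ?_⟩
  intro hF
  have hn := ffa_res_fib_npos pkg
  set D := Module.finrank k (k ⊗[O] 𝒜) with hD
  set m := m0 + D + g + 1 with hm
  have h1 : Module.finrank k (k ⊗[O] ↥(Λ m)) ≤ D :=
    LinearMap.finrank_le_finrank_of_injective (hinj m)
  have h2 := hrank m (by omega)
  have h3 : m ≤ m * n := Nat.le_mul_of_pos_right m hn
  omega

/-- **[FIB]** -/
theorem ffa_res_fib : ffa_res_SeamFIB := by
  intro O _ _ _ 𝒜 _ _ C _ _ π Kb _ _ _ κ _ _ _ Λ lead g n m0 c0 pkg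
  have hflatK : Module.Flat O Kb := by
    have : Module.IsTorsionFree O Kb := Module.isTorsionFree_iff_algebraMap_injective.2 pkg.inj
    infer_instance
  refine ⟨ffa_res_fib_isFib pkg Kb pkg.dedK (ffa_res_fib_inj_flat Λ Kb),
    ffa_res_fib_isFib pkg κ pkg.dedκ (ffa_res_fib_inj_κ pkg), ffa_res_fib_npos pkg,
    ffa_res_fib_free pkg, ?_⟩
  intro R _ _ _
  exact ⟨ffa_res_fib_inj_flat Λ R, fun m hm u hu => ffa_res_fib_exact pkg R m (by omega) u hu⟩

end Dvr

end Fermat.Agent.FF
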